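import Fermat.Agent.PicScheme.Interface
import Fermat.Agent.PicScheme.Tensor

/-!
# A representing scheme is separated

Two points are equal exactly when the difference of their classes is the class of the trivial
datum, and the zero section is a closed point. As closed points are dense in locally closed sets,
the diagonal has closed range.
-/

set_option autoImplicit false
set_option linter.style.haveILetI false

noncomputable section

universe u

open CategoryTheory CategoryTheory.Limits AlgebraicGeometry AlgebraicGeometry.RelPicard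
  NeronModelInfra GoodReductionJacobian

namespace FLTAgent.PicScheme

variable {k : Type u} [Field k]

/-- The difference of two classes of degree zero is a class of degree zero, and a trivial
difference means equal classes. -/
structure HasDifference (X : Charts k) : Prop where
  rig : ∀ (A : Type u) [CommRing A] [Algebra k A] (L M : Datum X A),
    L.IsRigidifiable → M.IsRigidifiable → (L.tensor M.dual).IsRigidifiable
  deg : ∀ (K : Type u) [Field K] [IsAlgClosed K] [Algebra k K] (L M : Datum X K),
    L.chi = (Datum.one X K).chi → M.chi = (Datum.one X K).chi →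
      (L.tensor M.dual).chi = (Datum.one X K).chi
  cancel : ∀ (L M : Datum X k), Nonempty (Datum.Iso (L.tensor M.dual) (Datum.one X k)) →
    Nonempty (Datum.Iso L M)

variable [IsAlgClosed k] {C : Scheme.{u}} {c : C ⟶ Spec (CommRingCat.of k)}
  {ε : SchemeHomOver (𝟙 (Spec (CommRingCat.of k))) c} {F : Frame c ε} {Δ : Dict F}

omit [IsAlgClosed k] in
theorem specT_self : specT k k = 𝟙 (Spec (CommRingCat.of k)) := by
  rw [specT, Algebra.algebraMap_self, CommRingCat.ofHom_id, Spec.map_id]

set_option backward.isDefEq.respectTransparency.types false in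
/-- A representing scheme is separated. -/
theorem Rep.isSeparated (R : Rep Δ) (hX : HasDifference F.X) : IsSeparated R.D.toBase := by
  haveI := R.lft
  let Q := pullback R.D.toBase R.D.toBase
  let q : Q ⟶ Spec (CommRingCat.of k) := pullback.fst R.D.toBase R.D.toBase ≫ R.D.toBase
  haveI : JacobsonSpace Q := LocallyOfFiniteType.jacobsonSpace q
  let dg : R.D.P ⟶ Q := pullback.diagonal R.D.toBase
  refine ⟨IsClosedImmersion.of_isPreimmersion _ ?_⟩
  show IsClosed (Set.range dg)
  have hlc : IsLocallyClosed (Set.range dg) := dg.isLocallyClosed_range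
  -- the closed points suffice
  suffices key : ∀ x ∈ closure (Set.range dg), IsClosed ({x} : Set Q) → x ∈ Set.range dg by
    refine closure_subset_iff_isClosed.1 fun x hx => ?_
    by_contra hxn
    obtain ⟨y, hy, hyc⟩ := nonempty_inter_closedPoints
      (Z := closure (Set.range dg) \ Set.range dg) ⟨x, hx, hxn⟩
      (by
        rw [← coborder_inter_closure (s := Set.range dg), Set.sdiff_eq]
        have h : closure (coborder (Set.range dg) ∩ closure (Set.range dg)) ∩
            (coborder (Set.range dg) ∩ closure (Set.range dg))ᶜ =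
            closure (Set.range dg) ∩ (coborder (Set.range dg))ᶜ := by
          rw [coborder_inter_closure]
          ext z
          simp only [Set.mem_inter_iff, Set.mem_compl_iff]
          refine ⟨fun h => ⟨h.1, fun h' => h.2 (coborder_inter_closure (s := Set.range dg) ▸
            ⟨h', h.1⟩)⟩, fun h => ⟨h.1, fun h' => h.2 (subset_coborder h')⟩⟩
        rw [h]
        exact (isClosed_closure.inter hlc.isOpen_coborder.isClosed_compl).isLocallyClosed)
    exact hy.2 (key y hy.1 hyc)
  intro x hx hxc
  obtain ⟨W, hW, hxW, -⟩ := exists_isAffineOpen_mem_and_subset (x := x) (U := ⊤) trivial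
  obtain ⟨φ, hφ⟩ := Spec.map_surjective (hW.fromSpec ≫ q)
  letI : Algebra k Γ(Q, W) := φ.hom.toAlgebra
  have hbase : hW.fromSpec ≫ q = specT k Γ(Q, W) := hφ.symm
  let a : SchemeHomOver (specT k Γ(Q, W)) R.D.toBase :=
    ⟨hW.fromSpec ≫ pullback.fst _ _, by rw [Category.assoc]; exact hbase⟩
  let a' : SchemeHomOver (specT k Γ(Q, W)) R.D.toBase :=
    ⟨hW.fromSpec ≫ pullback.snd _ _, by
      rw [Category.assoc, ← pullback.condition]; exact hbase⟩
  obtain ⟨L, hL, hLz⟩ := R.η_zero _ a
  obtain ⟨M, hM, hMz⟩ := R.η_zero _ a'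
  have hr : (L.1.tensor M.1.dual).IsRigidifiable := hX.rig _ _ _ L.2 M.2
  obtain ⟨δ, hδ⟩ := R.η_surj _ (Quot.mk _ (⟨_, hr⟩ : RigDatum F.X Γ(Q, W)))
    ⟨⟨_, hr⟩, rfl, fun K _ _ _ ψ => by
      rw [Datum.map_tensor, Datum.map_dual]
      exact hX.deg K _ _ (hLz K ψ) (hMz K ψ)⟩
  obtain ⟨h1, hzero⟩ := R.η_base k
  let g₀ : SchemeHomOver (specT k k) R.D.toBase := ⟨specT k k ≫ R.D.zeroSection, by
    rw [Category.assoc, R.D.zeroSection_toBase, Category.comp_id]⟩
  let z₀ : R.D.P := g₀.1 (IsLocalRing.closedPoint k)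
  have hover : ∀ {Y : Scheme.{u}} {y : Y ⟶ Spec (CommRingCat.of k)}
      (p : SchemeHomOver (specT k k) y), p.1 ≫ y = 𝟙 _ := fun p => p.2.trans specT_self
  have hz₀ : IsClosed ({z₀} : Set R.D.P) :=
    (pointEquivClosedPoint R.D.toBase ⟨g₀.1, hover g₀⟩).2
  -- closed points of `W` as homomorphisms, and what `δ` does on them
  have lift : ∀ y : Q, IsClosed ({y} : Set Q) → y ∈ W → ∀ yp : Spec (CommRingCat.of k) ⟶ Q,
      yp ≫ q = 𝟙 _ → yp (IsLocalRing.closedPoint k) = y →
      ∃ w : Spec (CommRingCat.of Γ(Q, W)), hW.fromSpec w = y ∧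
        (yp ≫ pullback.fst _ _ = yp ≫ pullback.snd _ _ ↔ δ.1 w = z₀) := by
    intro y _ hyW yp hyp hy
    have hr' : Set.range yp ⊆ Set.range hW.fromSpec := by
      rintro _ ⟨z, rfl⟩
      rw [hW.range_fromSpec, Subsingleton.elim z (IsLocalRing.closedPoint k), hy]
      exact hyW
    let l := IsOpenImmersion.lift hW.fromSpec yp hr'
    have hl : l ≫ hW.fromSpec = yp := IsOpenImmersion.lift_fac _ _ _
    obtain ⟨ψ, hψ⟩ := Spec.map_surjective l
    have hψk : ψ.hom.comp (algebraMap k Γ(Q, W)) = algebraMap k k := by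
      have h : Spec.map ψ ≫ specT k Γ(Q, W) = specT k k := by
        rw [hψ, ← hbase, ← Category.assoc, hl, hyp, specT_self]
      rw [specT, specT, ← Spec.map_comp] at h
      exact congrArg CommRingCat.Hom.hom (Spec.map_injective h)
    let χ : Γ(Q, W) →ₐ[k] k := { ψ.hom with commutes' := fun z => RingHom.congr_fun hψk z }
    have hχ : (specHom χ).1 = l := hψ
    refine ⟨l (IsLocalRing.closedPoint k), ?_, ?_⟩
    · rw [← hy, ← hl]
      rfl
    have hla : (postComp a (specHom χ)).1 = yp ≫ pullback.fst _ _ := by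
      show (specHom χ).1 ≫ hW.fromSpec ≫ _ = _
      rw [hχ, ← Category.assoc, hl]
    have hla' : (postComp a' (specHom χ)).1 = yp ≫ pullback.snd _ _ := by
      show (specHom χ).1 ≫ hW.fromSpec ≫ _ = _
      rw [hχ, ← Category.assoc, hl]
    have ea := R.η_map χ a
    have ea' := R.η_map χ a'
    have ed := R.η_map χ δ
    rw [← hL, Δ.map_mk χ L (Datum.IsRigidifiable.map L.2 χ)] at ea
    rw [← hM, Δ.map_mk χ M (Datum.IsRigidifiable.map M.2 χ)] at ea'
    rw [hδ, Δ.map_mk χ _ (Datum.IsRigidifiable.map hr χ)] at ed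
    have hdl : (postComp δ (specHom χ)).1 (IsLocalRing.closedPoint k) =
        δ.1 (l (IsLocalRing.closedPoint k)) := by
      show ((specHom χ).1 ≫ δ.1) _ = _
      rw [hχ]
      rfl
    constructor
    · intro heq
      have e : postComp a (specHom χ) = postComp a' (specHom χ) :=
        Subtype.ext (hla.trans (heq.trans hla'.symm))
      rw [e, ea'] at ea
      obtain ⟨i⟩ := Cls.mk_eq_iff.1 ea.symm
      have e' : postComp δ (specHom χ) = g₀ := R.η_injective k (ed.trans (Eq.trans
        (Cls.mk_eq_iff.2 ⟨by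
          show Datum.Iso ((L.1.tensor M.1.dual).map χ) (Datum.one F.X k)
          rw [Datum.map_tensor, Datum.map_dual]
          exact (i.tensor (Datum.Iso.refl _)).trans (Datum.tensorDualIso _)⟩) hzero.symm))
      rw [← hdl, e']
    · intro heq
      have e' : postComp δ (specHom χ) = g₀ := Subtype.ext
        (ext_of_apply_closedPoint_eq R.D.toBase (hover (postComp δ (specHom χ))) (hover g₀)
          (hdl.trans heq))
      rw [e'] at ed
      have h2 := Cls.mk_eq_iff.1 (ed.symm.trans hzero)
      have h3 : Nonempty (Datum.Iso ((L.1.tensor M.1.dual).map χ) (Datum.one F.X k)) := h2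
      rw [Datum.map_tensor, Datum.map_dual] at h3
      have e : postComp a (specHom χ) = postComp a' (specHom χ) := R.η_injective k
        (ea.trans ((Cls.mk_eq_iff.2 (hX.cancel _ _ h3)).trans ea'.symm))
      rw [← hla, ← hla', e]
  -- diagonal closed points go to the zero point
  have hdiag : hW.fromSpec ⁻¹' (Set.range dg ∩ closedPoints Q) ⊆ δ.1 ⁻¹' {z₀} := by
    rintro w ⟨⟨p, hp⟩, hwc⟩
    have hpc : IsClosed ({p} : Set R.D.P) := by
      have h : dg ⁻¹' {hW.fromSpec w} = {p} := by
        ext p'
        simp only [Set.mem_preimage, Set.mem_singleton_iff]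
        refine ⟨fun h' => ?_, fun h' => h' ▸ hp⟩
        have hinv : dg ≫ pullback.fst _ _ = 𝟙 _ := pullback.diagonal_fst _
        have e := congrArg (pullback.fst R.D.toBase R.D.toBase) (h'.trans hp.symm)
        rwa [← Scheme.Hom.comp_apply, ← Scheme.Hom.comp_apply, hinv] at e
      rw [← h]
      exact (show IsClosed ({hW.fromSpec w} : Set Q) from hwc).preimage dg.continuous
    let pp := pointOfClosedPoint R.D.toBase p hpc
    have hw : hW.fromSpec w ∈ W := hW.range_fromSpec.subset ⟨w, rfl⟩
    obtain ⟨w', hw', hiff⟩ := lift _ hwc hw (pp ≫ dg)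
      (by simp [q, dg, pp]) (by
        show dg (pp _) = _
        rw [pointOfClosedPoint_apply, hp])
    obtain rfl := hW.fromSpec.isOpenEmbedding.injective hw'
    exact hiff.1 (by simp [dg])
  obtain ⟨w, hw⟩ : x ∈ Set.range hW.fromSpec := hW.range_fromSpec.symm.subset hxW
  have hwz : δ.1 w = z₀ := by
    refine closure_minimal hdiag (hz₀.preimage δ.1.continuous) ?_
    rw [← hW.fromSpec.isOpenEmbedding.isOpenMap.preimage_closure_eq_closure_preimage
      hW.fromSpec.continuous, JacobsonSpace.closure_inter_closedPoints_eq_closure hlc,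
      Set.mem_preimage, hw]
    exact hx
  let xp := pointOfClosedPoint q x hxc
  obtain ⟨w', hw', hiff⟩ := lift x hxc hxW xp (pointOfClosedPoint_comp q x hxc)
    (pointOfClosedPoint_apply q x hxc _)
  obtain rfl := hW.fromSpec.isOpenEmbedding.injective (hw'.trans hw.symm)
  have heq := hiff.2 hwz
  refine ⟨(xp ≫ pullback.fst _ _) (IsLocalRing.closedPoint k), ?_⟩
  have e : (xp ≫ pullback.fst _ _) ≫ dg = xp := by
    apply pullback.hom_ext <;> simp [dg, heq]
  rw [← Scheme.Hom.comp_apply, e]
  exact pointOfClosedPoint_apply q x hxc _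

end FLTAgent.PicScheme
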