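import Fermat.Agent.PicScheme.Degree.Euler

/-!
# Euler numbers of composites with injections
-/

set_option autoImplicit false
set_option linter.style.haveILetI false

noncomputable section

universe u

namespace FLTAgent.PicScheme.Degree

variable {K Q Q' R R' : Type u} [Field K] [AddCommGroup Q] [Module K Q] [AddCommGroup Q']
  [Module K Q'] [AddCommGroup R] [Module K R] [AddCommGroup R'] [Module K R']

/-- Composition with an injection of finite cokernel on the target. -/
theorem euler_comp_left (d : Q →ₗ[K] R) (g : R →ₗ[K] R') (hg : Function.Injective g)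
    [Module.Finite K (R ⧸ LinearMap.range d)] [Module.Finite K (R' ⧸ LinearMap.range g)] :
    Module.Finite K (R' ⧸ LinearMap.range (g ∘ₗ d)) ∧
      euler (g ∘ₗ d) = euler d - Module.finrank K (R' ⧸ LinearMap.range g) := by
  let U := (LinearMap.range g).map (LinearMap.range (g ∘ₗ d)).mkQ
  let i : (R ⧸ LinearMap.range d) →ₗ[K] R' ⧸ LinearMap.range (g ∘ₗ d) :=
    Submodule.mapQ _ _ g (by rw [LinearMap.range_comp]; exact Submodule.le_comap_map _ _)
  have hi : Function.Injective i := by
    rw [← LinearMap.ker_eq_bot, LinearMap.ker_eq_bot']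
    intro z hz
    obtain ⟨r, rfl⟩ := Submodule.mkQ_surjective _ z
    obtain ⟨x, hx⟩ := (Submodule.Quotient.mk_eq_zero _).1 hz
    exact (Submodule.Quotient.mk_eq_zero _).2 ⟨x, hg hx⟩
  have hU : LinearMap.range i = U := Submodule.range_mapQ _ _ _ _
  let e : (R ⧸ LinearMap.range d) ≃ₗ[K] U :=
    (LinearEquiv.ofInjective i hi).trans (LinearEquiv.ofEq _ _ hU)
  let e' := Submodule.quotientQuotientEquivQuotient (LinearMap.range (g ∘ₗ d)) (LinearMap.range g)
    (LinearMap.range_comp_le_range _ _)
  haveI : Module.Finite K U := Module.Finite.equiv e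
  haveI : Module.Finite K ((R' ⧸ LinearMap.range (g ∘ₗ d)) ⧸ U) := Module.Finite.equiv e'.symm
  haveI : Module.Finite K (R' ⧸ LinearMap.range (g ∘ₗ d)) := Module.Finite.of_submodule_quotient U
  refine ⟨inferInstance, ?_⟩
  have h := U.finrank_quotient_add_finrank
  rw [e'.finrank_eq, ← e.finrank_eq] at h
  rw [euler, euler, LinearMap.ker_comp_of_ker_eq_bot d (LinearMap.ker_eq_bot.2 hg)]
  omega

/-- Composition with an injection of finite cokernel on the source. -/
theorem euler_comp_right (f : Q →ₗ[K] Q') (d : Q' →ₗ[K] R') (hf : Function.Injective f)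
    [Module.Finite K (LinearMap.ker d)] [Module.Finite K (Q' ⧸ LinearMap.range f)]
    [Module.Finite K (R' ⧸ LinearMap.range d)] [Module.Finite K (R' ⧸ LinearMap.range (d ∘ₗ f))] :
    euler (d ∘ₗ f) = euler d - Module.finrank K (Q' ⧸ LinearMap.range f) := by
  let p : (Q' ⧸ LinearMap.range f) →ₗ[K] R' ⧸ LinearMap.range (d ∘ₗ f) :=
    Submodule.mapQ _ _ d (by rw [LinearMap.range_comp]; exact Submodule.le_comap_map _ _)
  let e' := Submodule.quotientQuotientEquivQuotient (LinearMap.range (d ∘ₗ f)) (LinearMap.range d)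
    (LinearMap.range_comp_le_range _ _)
  have hp : LinearMap.range p = (LinearMap.range d).map (LinearMap.range (d ∘ₗ f)).mkQ :=
    Submodule.range_mapQ _ _ _ _
  let q : LinearMap.ker d →ₗ[K] Q' ⧸ LinearMap.range f :=
    (LinearMap.range f).mkQ ∘ₗ (LinearMap.ker d).subtype
  have hq : LinearMap.range q = LinearMap.ker p := by
    ext z
    constructor
    · rintro ⟨x, rfl⟩
      show Submodule.Quotient.mk (d x.1) = 0
      rw [LinearMap.mem_ker.1 x.2, Submodule.Quotient.mk_zero]
    · intro hz
      obtain ⟨y, rfl⟩ := Submodule.mkQ_surjective _ z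
      obtain ⟨x, hx⟩ := (Submodule.Quotient.mk_eq_zero _).1 hz
      refine ⟨⟨y - f x, by rw [LinearMap.mem_ker, map_sub]; exact sub_eq_zero.2 hx.symm⟩, ?_⟩
      exact (Submodule.Quotient.eq _).2 ⟨-x, by simp⟩
  let j : LinearMap.ker (d ∘ₗ f) →ₗ[K] LinearMap.ker q :=
    { toFun := fun x => ⟨⟨f x.1, x.2⟩, (Submodule.Quotient.mk_eq_zero _).2 ⟨x.1, rfl⟩⟩
      map_add' := fun x y => by ext; simp
      map_smul' := fun c x => by ext; simp }
  have hj : Function.Bijective j := by
    refine ⟨fun x y hxy => Subtype.ext (hf (congrArg (fun z => z.1.1) hxy)), fun z => ?_⟩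
    obtain ⟨x, hx⟩ := (Submodule.Quotient.mk_eq_zero _).1 (LinearMap.mem_ker.1 z.2)
    exact ⟨⟨x, show d (f x) = 0 by rw [hx]; exact z.1.2⟩, Subtype.ext (Subtype.ext hx)⟩
  have h1 := p.finrank_range_add_finrank_ker
  have h2 := q.finrank_range_add_finrank_ker
  rw [hq, ← (LinearEquiv.ofBijective j hj).finrank_eq] at h2
  have h3 := ((LinearMap.range d).map (LinearMap.range (d ∘ₗ f)).mkQ).finrank_quotient_add_finrank
  rw [e'.finrank_eq, ← hp] at h3
  rw [euler, euler]
  omega

end FLTAgent.PicScheme.Degree
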