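import Fermat.Agent.PicScheme.PolyChart
import Mathlib

/-!
# Quotients of a chart by a nonzero element
-/

set_option autoImplicit false
set_option linter.style.haveILetI false

noncomputable section

universe u

open Polynomial TensorProduct

namespace FLTAgent.PicScheme

variable {K : Type u} [Field K]

/-- A unit killed modulo `c` by a nonzero polynomial is inverse to a polynomial in itself
modulo `c`. -/
theorem exists_inv_mod {R : Type u} [CommRing R] [Algebra K R] {t c : R} (ht : IsUnit t)
    {p : K[X]} (hp : p ≠ 0) (hpc : aeval t p ∈ Ideal.span ({c} : Set R)) (N : ℕ) :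
    ∃ (r : K[X]) (y : R), t ^ N * aeval t r = 1 + c * y := by
  obtain ⟨q, hq, hdvd⟩ := Polynomial.exists_eq_pow_rootMultiplicity_mul_and_not_dvd p hp 0
  rw [map_zero, sub_zero] at hq hdvd
  have h0 : q.coeff 0 ≠ 0 := fun h => hdvd (Polynomial.X_dvd_iff.2 h)
  set π := Ideal.Quotient.mk (Ideal.span ({c} : Set R))
  have hq0 : π (aeval t q) = 0 := by
    have h := Ideal.Quotient.eq_zero_iff_mem.2 hpc
    rw [hq, map_mul, map_pow, aeval_X, map_mul, map_pow] at h
    exact ((ht.map π).pow _).mul_right_eq_zero.1 h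
  set r : K[X] := C (-(q.coeff 0)⁻¹) * q.divX
  have hr : π (t * aeval t r) = 1 := by
    have hsplit : aeval t q = t * aeval t q.divX + algebraMap K R (q.coeff 0) := by
      conv_lhs => rw [← Polynomial.X_mul_divX_add q]
      rw [map_add, map_mul, aeval_X, aeval_C]
    have hc : π (algebraMap K R (q.coeff 0)) = -π (t * aeval t q.divX) := by
      rw [hsplit, map_add] at hq0
      exact eq_neg_of_add_eq_zero_right hq0
    calc π (t * aeval t r)
        = π (algebraMap K R (q.coeff 0)⁻¹) * -π (t * aeval t q.divX) := by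
          simp only [r, map_mul, map_neg, aeval_C]; ring
      _ = π (algebraMap K R ((q.coeff 0)⁻¹ * q.coeff 0)) := by rw [← hc, map_mul, map_mul]
      _ = 1 := by rw [inv_mul_cancel₀ h0, map_one, map_one]
  have hN : π (t ^ N * aeval t (r ^ N)) = π 1 := by
    rw [map_pow, ← mul_pow, map_pow, hr, one_pow, map_one]
  obtain ⟨y, hy⟩ := Ideal.mem_span_singleton'.1 (Ideal.Quotient.eq.1 hN)
  exact ⟨r ^ N, y, eq_add_of_sub_eq' ((mul_comm c y).trans hy).symm⟩

variable {R : Type u} [CommRing R] [IsDomain R] [Algebra K R]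

/-- A finite algebra over a polynomial ring has finite quotients by nonzero elements. -/
theorem exists_finite_quot_mod (t : R) (hfin : RingHom.Finite (aeval (R := K) t).toRingHom) {c : R}
    (hc : c ≠ 0) :
    ∃ p : K[X], p ≠ 0 ∧ aeval t p ∈ Ideal.span ({c} : Set R) ∧
      Module.Finite K (R ⧸ Ideal.span ({c} : Set R)) := by
  letI := (aeval (R := K) t).toRingHom.toAlgebra
  haveI : Module.Finite K[X] R := hfin
  obtain ⟨p, hp, hp0⟩ := (Submodule.ne_bot_iff _).1
    (Ideal.comap_ne_bot_of_integral_mem (R := K[X]) hc (Ideal.mem_span_singleton_self c)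
      (Algebra.IsIntegral.isIntegral c))
  obtain ⟨q, hq, hqm⟩ : ∃ q : K[X], aeval t q ∈ Ideal.span ({c} : Set R) ∧ q.Monic :=
    ⟨p * C p.leadingCoeff⁻¹, by rw [map_mul]; exact Ideal.mul_mem_right _ _ hp,
      Polynomial.monic_mul_leadingCoeff_inv hp0⟩
  refine ⟨q, hqm.ne_zero, hq, ?_⟩
  set I := Ideal.span ({c} : Set R)
  haveI : Module.Finite K (K[X] ⧸ Ideal.span {q}) := hqm.finite_quotient
  let φ : (K[X] ⧸ Ideal.span {q}) →ₐ[K] R ⧸ I :=
    Ideal.Quotient.liftₐ _ ((Ideal.Quotient.mkₐ K I).comp (aeval t)) fun a ha => by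
      obtain ⟨b, rfl⟩ := Ideal.mem_span_singleton'.1 ha
      rw [AlgHom.comp_apply, map_mul, map_mul]
      exact mul_eq_zero_of_right _ (Ideal.Quotient.eq_zero_iff_mem.2 hq)
  letI := φ.toRingHom.toAlgebra
  haveI : IsScalarTower K (K[X] ⧸ Ideal.span {q}) (R ⧸ I) :=
    IsScalarTower.of_algebraMap_eq fun x => (φ.commutes x).symm
  haveI : Module.Finite (K[X] ⧸ Ideal.span {q}) (R ⧸ I) := by
    have h2 : φ.toRingHom.Finite := by
      refine RingHom.Finite.of_comp_finite (f := Ideal.Quotient.mk (Ideal.span {q})) ?_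
      exact (RingHom.Finite.of_surjective _ Ideal.Quotient.mk_surjective).comp hfin
    exact h2
  exact Module.Finite.trans (K[X] ⧸ Ideal.span {q}) (R ⧸ I)

omit [IsDomain R] in
/-- The change of variable in a chart. -/
theorem finite_aeval_one_tmul {k A B : Type u} [Field k] [CommRing A] [Algebra k A] [CommRing B]
    [Algebra k B] {b : B} (hb : PolyChart.IsFree k b) :
    RingHom.Finite (aeval (R := A) ((1 : A) ⊗ₜ[k] b)).toRingHom := by
  obtain ⟨r, Φ, -⟩ := PolyChart.free (A := A) hb
  haveI : Module.Finite A[X] (PolyChart k A b) := Module.Finite.equiv Φ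
  exact (RingHom.finite_algebraMap (A := A[X]) (B := PolyChart k A b)).2 inferInstance

end FLTAgent.PicScheme
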