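import Fermat.Agent.PicScheme.Props.Unimodular
import Fermat.Agent.PicScheme.Props.Quot
import Fermat.Agent.PicScheme.Props.EulerComp
import Fermat.Agent.PicScheme.Bridge
import Fermat.Agent.PicScheme.Degree.Chi

/-!
# Sections of data of the Euler characteristic of the trivial one

On an integral curve a nonzero section of such a datum vanishes nowhere.
-/

set_option autoImplicit false
set_option linter.style.haveILetI false
set_option linter.unusedSectionVars false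

noncomputable section

universe u

open TensorProduct Matrix Polynomial

namespace FLTAgent.PicScheme

open Degree

variable {K : Type u} [Field K]

section Fixed

variable {R : Type u} [CommRing R] [Algebra K R] {n : ℕ}
  {e : Matrix (Fin n) (Fin n) R} {e' : Matrix (Fin 1) (Fin 1) R}

/-- Multiples of a fixed vector. -/
def mulBy (s : Fin n → R) (hs : e *ᵥ s = s) : fixed K e' →ₗ[K] fixed K e where
  toFun p := ⟨(p : Fin 1 → R) 0 • s, by rw [mem_fixed, Matrix.mulVec_smul, hs]⟩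
  map_add' p q := Subtype.ext (add_smul _ _ _)
  map_smul' c p := Subtype.ext (smul_assoc c ((p : Fin 1 → R) 0) s)

theorem mulBy_injective (s : Fin n → R) (hs : e *ᵥ s = s) (i : Fin n)
    (hi : ∀ r : R, r * s i = 0 → r = 0) : Function.Injective (mulBy (K := K) (e' := e') s hs) := by
  intro p q hpq
  have h : (p : Fin 1 → R) 0 * s i = (q : Fin 1 → R) 0 * s i :=
    congrFun (congrArg Subtype.val hpq) i
  exact Subtype.ext (funext fun j => by
    rw [Subsingleton.elim j 0]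
    exact sub_eq_zero.1 (hi _ (by rw [sub_mul, h, sub_self])))

/-- The cokernel of the multiples is finite when that of a coordinate is. -/
theorem finite_coker_mulBy (he : IsRankOne e) (he' : e' = 1) (s : Fin n → R) (hs : e *ᵥ s = s)
    (i : Fin n) [Module.Finite K (R ⧸ Ideal.span ({s i} : Set R))] :
    Module.Finite K (fixed K e ⧸ LinearMap.range (mulBy (K := K) (e' := e') s hs)) := by
  let π : (Fin n → R) →ₗ[K] (Fin n → R ⧸ Ideal.span ({s i} : Set R)) :=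
    LinearMap.pi fun j => (Ideal.Quotient.mkₐ K _).toLinearMap ∘ₗ LinearMap.proj j
  have hπ : Function.Surjective π := fun y =>
    ⟨fun j => (Ideal.Quotient.mk_surjective (y j)).choose,
      funext fun j => (Ideal.Quotient.mk_surjective (y j)).choose_spec⟩
  haveI : Module.Finite K ((Fin n → R) ⧸ LinearMap.ker π) :=
    Module.Finite.equiv (π.quotKerEquivOfSurjective hπ).symm
  let Ψ := (LinearMap.range (mulBy (K := K) (e' := e') s hs)).mkQ ∘ₗ toFixed K he.idem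
  have hΨ : LinearMap.ker π ≤ LinearMap.ker Ψ := by
    intro x hx
    have hx' : ∀ j, ∃ y, y * s i = x j := fun j =>
      Ideal.mem_span_singleton'.1 (Ideal.Quotient.eq_zero_iff_mem.1 (congrFun hx j))
    choose y hy using hx'
    refine (Submodule.Quotient.mk_eq_zero _).2
      ⟨⟨fun _ => (e *ᵥ y) i, by rw [mem_fixed, he', Matrix.one_mulVec]⟩, Subtype.ext ?_⟩
    funext l
    show (e *ᵥ y) i * s l = (e *ᵥ x) l
    have hxy : x = s i • y := funext fun j => by rw [← hy j]; exact mul_comm _ _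
    rw [hxy, Matrix.mulVec_smul, Pi.smul_apply, smul_eq_mul, mul_comm]
    exact (he.fixed_comm hs (mulVec_mem_fixed (A := K) he.idem y) i l).symm
  refine Module.Finite.of_surjective ((LinearMap.ker π).liftQ Ψ hΨ) fun z => ?_
  obtain ⟨x, rfl⟩ := Submodule.mkQ_surjective _ z
  exact ⟨Submodule.Quotient.mk x, congrArg (Submodule.mkQ _) (toFixed_self he.idem x)⟩

/-- No cokernel means a dual vector. -/
theorem exists_dual_of_surjective (he : IsRankOne e) (s : Fin n → R) (hs : e *ᵥ s = s)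
    (h : Function.Surjective (mulBy (K := K) (e' := e') s hs)) : ∃ b, b ⬝ᵥ s = 1 := by
  choose p hp using fun j => h (toFixed K he.idem (Pi.single j 1))
  refine ⟨fun j => (p j : Fin 1 → R) 0, ?_⟩
  rw [← he.trace]
  refine Finset.sum_congr rfl fun j _ => ?_
  have := congrFun (congrArg Subtype.val (hp j)) j
  show _ = e j j
  rw [show e j j = (e *ᵥ Pi.single j 1) j by simp]
  exact this

end Fixed

variable {k : Type u} [Field k] {X : Charts k} [Algebra k K]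

theorem Datum.finite_H0 (L : Datum X K) : Module.Finite K L.H0 := by
  obtain ⟨i1, i2⟩ := PolyChart.image_finite_projective (A := K) X.isFree.1 L.rank₁.idem
  obtain ⟨i3, i4⟩ := PolyChart.image_finite_projective (A := K) X.isFree.2 L.rank₂.idem
  obtain ⟨G₁, hG₁, hb₁⟩ := (L.twoTerm X.isFree).exists_fg_bound
  obtain ⟨G₂, hG₂, hb₂⟩ := (L.twoTerm X.isFree).swap.exists_fg_bound
  have hle : LinearMap.ker (L.twoTerm X.isFree).δ ≤ G₁.prod G₂ := fun h hh => by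
    refine ⟨hb₁ h hh, hb₂ (h.2, h.1) ?_⟩
    rw [TwoTerm.mem_ker]
    exact ((L.twoTerm X.isFree).mem_ker.1 hh).symm
  haveI : Module.Finite K (G₁.prod G₂) := Module.Finite.of_fg (hG₁.prod hG₂)
  haveI : Module.Finite K (LinearMap.ker (L.twoTerm X.isFree).δ) :=
    Submodule.finiteDimensional_of_le hle
  exact Module.Finite.equiv (L.kerEquiv X.isFree)

theorem Datum.finite_dlt (L : Datum X K) :
    Module.Finite K (LinearMap.ker (dlt L)) ∧
      Module.Finite K (fixed K (L.e₂.map (X.res₂ K)) ⧸ LinearMap.range (dlt L)) := by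
  haveI := L.finite_H0
  haveI := L.finite_coker X.isFree
  refine ⟨Module.Finite.equiv (Degree.kerEquiv L).symm, ?_⟩
  refine Module.Finite.equiv
    (M := L.overlap ⧸ (LinearMap.range L.delta).comap L.overlap.subtype)
    (Submodule.Quotient.equiv _ _ (LinearEquiv.ofEq _ _ (overlap_eq_fixed L).symm) ?_).symm
  ext z
  rw [Submodule.mem_map_equiv, Submodule.mem_comap]
  exact mem_range_delta L _

/-- A nonzero section is nonzero on both charts. -/
theorem Datum.H0_ne_zero (L : Datum X K) {s : (Fin L.n₁ → X.R₁ K) × (Fin L.n₂ → X.R₂ K)}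
    (hs : s ∈ L.H0) (h0 : s ≠ 0) : s.1 ≠ 0 ∧ s.2 ≠ 0 := by
  obtain ⟨h₁, -, hu⟩ := hs
  have h12 : s.1 = 0 → s.2 = 0 := fun h => funext fun i => X.res₂_injective K X.isFree (by
    have := congrFun hu i
    rw [h, show X.res₁ K ∘ (0 : Fin L.n₁ → X.R₁ K) = 0 from funext fun _ => map_zero _,
      Matrix.mulVec_zero] at this
    rw [Pi.zero_apply, map_zero]
    exact this.symm)
  have h21 : s.2 = 0 → s.1 = 0 := fun h => funext fun i => X.res₁_injective K X.isFree (by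
    have := congrArg (L.v *ᵥ ·) hu
    simp only [Matrix.mulVec_mulVec, L.vu] at this
    rw [← L.res₁_mulVec, h₁, h, show X.res₂ K ∘ (0 : Fin L.n₂ → X.R₂ K) = 0 from
      funext fun _ => map_zero _, Matrix.mulVec_zero] at this
    rw [Pi.zero_apply, map_zero]
    exact congrFun this i)
  exact ⟨fun h => h0 (Prod.ext h (h12 h)), fun h => h0 (Prod.ext (h21 h) h)⟩

/-- Modulo the multiples of a section the overlap comes from the first chart. -/
theorem Datum.exists_near₁ (L : Datum X K) {s : Fin L.n₁ → X.R₁ K} (hs : L.e₁ *ᵥ s = s)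
    {s₀ : Fin L.n₂ → X.R₀ K} (hu : L.u *ᵥ (X.res₁ K ∘ s) = s₀) {i : Fin L.n₁} {q : K[X]}
    (hq : q ≠ 0) (hqc : aeval ((1 : K) ⊗ₜ[k] X.f) q ∈ Ideal.span ({s i} : Set (X.R₁ K)))
    {z : Fin L.n₂ → X.R₀ K} (hz : L.e₂.map (X.res₂ K) *ᵥ z = z) :
    ∃ (x : fixed K L.e₁) (r : X.R₀ K), L.u *ᵥ (X.res₁ K ∘ x.1) - z = r • s₀ := by
  obtain ⟨N, p, hp⟩ := (L.twoTerm X.isFree).gen0 ⟨z, L.mem_overlap.2 hz⟩
  have hx : X.t₀ K ^ N • z = L.u *ᵥ (X.res₁ K ∘ L.sec₁ p) :=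
    (L.shift_iter N ⟨z, L.mem_overlap.2 hz⟩).symm.trans (congrArg Subtype.val hp)
  have hc : aeval (X.t₀ K) q ∈ Ideal.span ({X.res₁ K (s i)} : Set (X.R₀ K)) := by
    obtain ⟨y, hy⟩ := Ideal.mem_span_singleton'.1 hqc
    refine Ideal.mem_span_singleton'.2 ⟨X.res₁ K y, ?_⟩
    rw [← map_mul, hy, ← Polynomial.aeval_algHom_apply]
    rfl
  obtain ⟨r, y, hr⟩ := exists_inv_mod (IsUnit.of_mul_eq_one _ (X.t₀_mul_s₀ K)) hq hc N
  set x : Fin L.n₁ → X.R₁ K := aeval ((1 : K) ⊗ₜ[k] X.f) r • L.sec₁ p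
  refine ⟨⟨x, by rw [mem_fixed, Matrix.mulVec_smul, L.e₁_sec]⟩, y * (L.v *ᵥ z) i, ?_⟩
  have hw : L.e₁.map (X.res₁ K) *ᵥ (L.v *ᵥ z) = L.v *ᵥ z := by
    rw [Matrix.mulVec_mulVec, ← L.vu, Matrix.mul_assoc, L.uv, L.v_cut]
  have hres : L.e₁.map (X.res₁ K) *ᵥ (X.res₁ K ∘ s) = X.res₁ K ∘ s := by
    rw [← L.res₁_mulVec, hs]
  have hcz : X.res₁ K (s i) • z = (L.v *ᵥ z) i • s₀ := by
    have h3 : X.res₁ K (s i) • (L.v *ᵥ z) = (L.v *ᵥ z) i • (X.res₁ K ∘ s) :=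
      funext fun l => ((IsRankOne.map (X.res₁ K).toRingHom L.rank₁).fixed_comm hres hw i l).trans
        (mul_comm _ _)
    have h4 := congrArg (L.u *ᵥ ·) h3
    simp only [Matrix.mulVec_smul, hu, Matrix.mulVec_mulVec, L.uv, hz] at h4
    exact h4
  have hres' : X.res₁ K ∘ x = aeval (X.t₀ K) r • (X.res₁ K ∘ L.sec₁ p) := funext fun j => by
    refine (map_mul (X.res₁ K) _ _).trans ?_
    rw [← Polynomial.aeval_algHom_apply]
    rfl
  show L.u *ᵥ (X.res₁ K ∘ x) - z = _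
  rw [hres', Matrix.mulVec_smul, ← hx, smul_smul, mul_comm (aeval (X.t₀ K) r), hr, add_smul,
    one_smul, add_sub_cancel_left, mul_smul, smul_comm, hcz, smul_smul]

/-- Modulo the multiples of a section the overlap comes from the second chart. -/
theorem Datum.exists_near₂ (L : Datum X K) {s : Fin L.n₂ → X.R₂ K} (hs : L.e₂ *ᵥ s = s)
    {i : Fin L.n₂} {q : K[X]} (hq : q ≠ 0)
    (hqc : aeval ((1 : K) ⊗ₜ[k] X.g) q ∈ Ideal.span ({s i} : Set (X.R₂ K)))
    {z : Fin L.n₂ → X.R₀ K} (hz : L.e₂.map (X.res₂ K) *ᵥ z = z) :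
    ∃ (x : fixed K L.e₂) (r : X.R₀ K), X.res₂ K ∘ x.1 - z = r • (X.res₂ K ∘ s) := by
  obtain ⟨N, p, hp⟩ := (L.twoTerm X.isFree).gen1 ⟨z, L.mem_overlap.2 hz⟩
  have hx : X.s₀ K ^ N • z = X.res₂ K ∘ L.sec₂ p :=
    (L.shift_symm_iter N ⟨z, L.mem_overlap.2 hz⟩).symm.trans (congrArg Subtype.val hp)
  have hc : aeval (X.s₀ K) q ∈ Ideal.span ({X.res₂ K (s i)} : Set (X.R₀ K)) := by
    obtain ⟨y, hy⟩ := Ideal.mem_span_singleton'.1 hqc
    refine Ideal.mem_span_singleton'.2 ⟨X.res₂ K y, ?_⟩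
    rw [← map_mul, hy, ← Polynomial.aeval_algHom_apply]
    rfl
  obtain ⟨r, y, hr⟩ := exists_inv_mod (IsUnit.of_mul_eq_one _ (X.s₀_mul_t₀ K)) hq hc N
  set x : Fin L.n₂ → X.R₂ K := aeval ((1 : K) ⊗ₜ[k] X.g) r • L.sec₂ p
  refine ⟨⟨x, by rw [mem_fixed, Matrix.mulVec_smul, L.e₂_sec]⟩, y * z i, ?_⟩
  have hres : L.e₂.map (X.res₂ K) *ᵥ (X.res₂ K ∘ s) = X.res₂ K ∘ s := by
    rw [← L.res₂_mulVec, hs]
  have hcz : X.res₂ K (s i) • z = z i • (X.res₂ K ∘ s) :=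
    funext fun l => ((IsRankOne.map (X.res₂ K).toRingHom L.rank₂).fixed_comm hres hz i l).trans
      (mul_comm _ _)
  have hres' : X.res₂ K ∘ x = aeval (X.s₀ K) r • (X.res₂ K ∘ L.sec₂ p) := funext fun j => by
    refine (map_mul (X.res₂ K) _ _).trans ?_
    rw [← Polynomial.aeval_algHom_apply]
    rfl
  show X.res₂ K ∘ x - z = _
  rw [hres', ← hx, smul_smul, mul_comm (aeval (X.s₀ K) r), hr, add_smul,
    one_smul, add_sub_cancel_left, mul_smul, smul_comm, hcz, smul_smul]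

/-- On an integral curve a nonzero section of a datum with the Euler characteristic of the trivial
one has unimodular coordinates. -/
theorem Datum.unimodular_of_chi (L : Datum X K) [IsDomain (X.R₁ K)] [IsDomain (X.R₂ K)]
    (hchi : L.chi = (Datum.one X K).chi) {s : (Fin L.n₁ → X.R₁ K) × (Fin L.n₂ → X.R₂ K)}
    (hs : s ∈ L.H0) (h0 : s ≠ 0) : (∃ b, b ⬝ᵥ s.1 = 1) ∧ ∃ b, b ⬝ᵥ s.2 = 1 := by
  obtain ⟨hne₁, hne₂⟩ := L.H0_ne_zero hs h0
  obtain ⟨he₁, he₂, hu⟩ := hs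
  have hE₀ : ∀ x : Fin 1 → X.R₀ K, ((Datum.one X K).e₂.map (X.res₂ K)) *ᵥ x = x := fun x => by
    show (1 : Matrix (Fin 1) (Fin 1) (X.R₂ K)).map (X.res₂ K) *ᵥ x = x
    rw [Matrix.map_one _ (map_zero _) (map_one _), Matrix.one_mulVec]
  set s₀ : Fin L.n₂ → X.R₀ K := X.res₂ K ∘ s.2
  have hs₀ : L.e₂.map (X.res₂ K) *ᵥ s₀ = s₀ := by rw [res_mulVec₂, he₂]
  let f₁ : fixed K (Datum.one X K).e₁ →ₗ[K] fixed K L.e₁ :=
    mulBy (e' := (Datum.one X K).e₁) s.1 he₁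
  let f₂ : fixed K (Datum.one X K).e₂ →ₗ[K] fixed K L.e₂ :=
    mulBy (e' := (Datum.one X K).e₂) s.2 he₂
  let g : fixed K ((Datum.one X K).e₂.map (X.res₂ K)) →ₗ[K] fixed K (L.e₂.map (X.res₂ K)) :=
    mulBy (e' := (Datum.one X K).e₂.map (X.res₂ K)) s₀ hs₀
  have hcomm : g ∘ₗ dlt (Datum.one X K) = dlt L ∘ₗ f₁.prodMap f₂ := by
    refine LinearMap.ext fun p => Subtype.ext ?_
    refine Eq.trans ?_ (dlt_coe' L (f₁ p.1, f₂ p.2)).symm
    show ((dlt (Datum.one X K) p).1 ⟨0, Nat.one_pos⟩) • s₀ =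
      L.u *ᵥ (X.res₁ K ∘ (p.1.1 ⟨0, Nat.one_pos⟩ • s.1)) -
        X.res₂ K ∘ (p.2.1 ⟨0, Nat.one_pos⟩ • s.2)
    have h1 : X.res₁ K ∘ (p.1.1 ⟨0, Nat.one_pos⟩ • s.1) =
        X.res₁ K (p.1.1 ⟨0, Nat.one_pos⟩) • (X.res₁ K ∘ s.1) :=
      funext fun i => map_mul (X.res₁ K) _ _
    have h2 : X.res₂ K ∘ (p.2.1 ⟨0, Nat.one_pos⟩ • s.2) =
        X.res₂ K (p.2.1 ⟨0, Nat.one_pos⟩) • s₀ := funext fun i => map_mul (X.res₂ K) _ _
    rw [h1, h2, Matrix.mulVec_smul, hu, ← sub_smul, dlt_coe']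
    congr 1
    refine congrArg (· - X.res₂ K (p.2.1 ⟨0, Nat.one_pos⟩)) ?_
    exact congrFun (Matrix.one_mulVec (m := Fin 1) (X.res₁ K ∘ p.1.1)) 0
  -- finite cokernels
  obtain ⟨i₁, hi₁⟩ := Function.ne_iff.1 hne₁
  obtain ⟨i₂, hi₂⟩ := Function.ne_iff.1 hne₂
  obtain ⟨q₁, hq₁, hq₁c, hF₁⟩ := exists_finite_quot_mod _
    (finite_aeval_one_tmul (A := K) X.isFree.1) hi₁
  obtain ⟨q₂, hq₂, hq₂c, hF₂⟩ := exists_finite_quot_mod _
    (finite_aeval_one_tmul (A := K) X.isFree.2) hi₂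
  haveI hW₁ : Module.Finite K (_ ⧸ LinearMap.range f₁) :=
    finite_coker_mulBy L.rank₁ rfl s.1 he₁ i₁
  haveI hW₂ : Module.Finite K (_ ⧸ LinearMap.range f₂) :=
    finite_coker_mulBy L.rank₂ rfl s.2 he₂ i₂
  let τ₁ : fixed K L.e₁ →ₗ[K] fixed K (L.e₂.map (X.res₂ K)) :=
    dlt L ∘ₗ LinearMap.inl K (fixed K L.e₁) (fixed K L.e₂)
  let τ₂ : fixed K L.e₂ →ₗ[K] fixed K (L.e₂.map (X.res₂ K)) :=
    -(dlt L ∘ₗ LinearMap.inr K (fixed K L.e₁) (fixed K L.e₂))
  have hτ₁c : ∀ x, (τ₁ x : Fin L.n₂ → X.R₀ K) = L.u *ᵥ (X.res₁ K ∘ (x : Fin L.n₁ → X.R₁ K)) := by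
    intro x
    show (dlt L (x, 0) : Fin L.n₂ → X.R₀ K) = _
    rw [dlt_coe', show X.res₂ K ∘ ((0 : fixed K L.e₂) : Fin L.n₂ → X.R₂ K) = 0 from
      funext fun _ => map_zero _, sub_zero]
  have hτ₂c : ∀ x, (τ₂ x : Fin L.n₂ → X.R₀ K) = X.res₂ K ∘ (x : Fin L.n₂ → X.R₂ K) := by
    intro x
    show -(dlt L (0, x) : Fin L.n₂ → X.R₀ K) = _
    rw [dlt_coe', show X.res₁ K ∘ ((0 : fixed K L.e₁) : Fin L.n₁ → X.R₁ K) = 0 from
      funext fun _ => map_zero _, Matrix.mulVec_zero, zero_sub, neg_neg]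
  let T₁ : (_ ⧸ LinearMap.range f₁) →ₗ[K] _ ⧸ LinearMap.range g :=
    Submodule.mapQ _ _ τ₁ (by
      rintro _ ⟨p, rfl⟩
      refine ⟨⟨fun _ => X.res₁ K (p.1 ⟨0, Nat.one_pos⟩),
        hE₀ _⟩, Subtype.ext ?_⟩
      rw [hτ₁c]
      show _ • s₀ = L.u *ᵥ (X.res₁ K ∘ (p.1 ⟨0, Nat.one_pos⟩ • s.1))
      rw [show X.res₁ K ∘ (p.1 ⟨0, Nat.one_pos⟩ • s.1) =
        X.res₁ K (p.1 ⟨0, Nat.one_pos⟩) • (X.res₁ K ∘ s.1) from
        funext fun i => map_mul (X.res₁ K) _ _, Matrix.mulVec_smul, hu])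
  let T₂ : (_ ⧸ LinearMap.range f₂) →ₗ[K] _ ⧸ LinearMap.range g :=
    Submodule.mapQ _ _ τ₂ (by
      rintro _ ⟨p, rfl⟩
      refine ⟨⟨fun _ => X.res₂ K (p.1 ⟨0, Nat.one_pos⟩),
        hE₀ _⟩, Subtype.ext ?_⟩
      rw [hτ₂c]
      exact funext fun i => (map_mul (X.res₂ K) _ _).symm)
  have hT₁ : Function.Surjective T₁ := by
    intro z
    obtain ⟨z, rfl⟩ := Submodule.mkQ_surjective _ z
    obtain ⟨x, r, hx⟩ := L.exists_near₁ he₁ hu hq₁ hq₁c (mem_fixed.1 z.2)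
    refine ⟨Submodule.Quotient.mk x, (Submodule.Quotient.eq _).2 ⟨⟨fun _ => r, hE₀ _⟩, Subtype.ext ?_⟩⟩
    exact (hx.symm.trans (by rw [← hτ₁c x]; rfl))
  have hT₂ : Function.Surjective T₂ := by
    intro z
    obtain ⟨z, rfl⟩ := Submodule.mkQ_surjective _ z
    obtain ⟨x, r, hx⟩ := L.exists_near₂ he₂ hq₂ hq₂c (mem_fixed.1 z.2)
    refine ⟨Submodule.Quotient.mk x, (Submodule.Quotient.eq _).2 ⟨⟨fun _ => r, hE₀ _⟩, Subtype.ext ?_⟩⟩
    exact (hx.symm.trans (by rw [← hτ₂c x]; rfl))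
  -- counting
  haveI : Module.Finite K (_ ⧸ LinearMap.range g) := Module.Finite.of_surjective T₁ hT₁
  obtain ⟨_, _⟩ := L.finite_dlt
  obtain ⟨_, _⟩ := (Datum.one X K).finite_dlt
  let Φ := (LinearMap.range f₁).mkQ.prodMap (LinearMap.range f₂).mkQ
  have hΦk : LinearMap.ker Φ = LinearMap.range (f₁.prodMap f₂) := by
    rw [LinearMap.ker_prodMap, Submodule.ker_mkQ, Submodule.ker_mkQ, LinearMap.range_prodMap]
  have hΦs : Function.Surjective Φ := (Submodule.mkQ_surjective _).prodMap (Submodule.mkQ_surjective _)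
  let eΦ := (Submodule.quotEquivOfEq _ _ hΦk.symm).trans (Φ.quotKerEquivOfSurjective hΦs)
  haveI : Module.Finite K (_ ⧸ LinearMap.range (f₁.prodMap f₂)) := Module.Finite.equiv eΦ.symm
  haveI : Module.Finite K (fixed K (L.e₂.map (X.res₂ K)) ⧸ LinearMap.range g) := Module.Finite.of_surjective T₁ hT₁
  obtain ⟨hfin, hl⟩ := euler_comp_left (dlt (Datum.one X K)) g
    (mulBy_injective s₀ hs₀ i₂ fun r hr => by
      obtain ⟨N, x, hx⟩ := X.exists_res₂ K r
      have h : x * s.2 i₂ = 0 := X.res₂_injective K X.isFree (by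
        rw [map_mul, map_zero, ← hx, mul_assoc, show r * X.res₂ K (s.2 i₂) = 0 from hr, mul_zero])
      rw [(mul_eq_zero.1 h).resolve_right hi₂, map_zero] at hx
      exact (((IsUnit.of_mul_eq_one _ (X.s₀_mul_t₀ K)).pow N).mul_right_eq_zero).1 hx)
  rw [hcomm] at hl hfin
  haveI := hfin
  have hr := euler_comp_right (K := K) (f₁.prodMap f₂) (dlt L)
    ((mulBy_injective s.1 he₁ i₁ fun r hr => (mul_eq_zero.1 hr).resolve_right hi₁).prodMap
      (mulBy_injective s.2 he₂ i₂ fun r hr => (mul_eq_zero.1 hr).resolve_right hi₂))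
  rw [chi_eq_euler, chi_eq_euler] at hchi
  have h1 := LinearMap.finrank_le_finrank_of_surjective hT₁
  have h2 := LinearMap.finrank_le_finrank_of_surjective hT₂
  have h3 := eΦ.finrank_eq
  rw [Module.finrank_prod] at h3
  have h5 := hl.symm.trans hr
  rw [hchi] at h5
  have h6 := sub_right_injective h5
  have h4 : Module.finrank K (_ ⧸ LinearMap.range f₁) = 0 ∧
      Module.finrank K (_ ⧸ LinearMap.range f₂) = 0 := by omega
  refine ⟨exists_dual_of_surjective (K := K) (e' := (Datum.one X K).e₁) L.rank₁ s.1 he₁ (LinearMap.range_eq_top.1 ?_),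
    exists_dual_of_surjective (K := K) (e' := (Datum.one X K).e₂) L.rank₂ s.2 he₂ (LinearMap.range_eq_top.1 ?_)⟩
  · exact Submodule.Quotient.subsingleton_iff.1 ((Module.finrank_zero_iff (R := K) (M := _ ⧸ LinearMap.range f₁)).1 h4.1)
  · exact Submodule.Quotient.subsingleton_iff.1 ((Module.finrank_zero_iff (R := K) (M := _ ⧸ LinearMap.range f₂)).1 h4.2)

end FLTAgent.PicScheme
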