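import Fermat.Agent.PicScheme.Interface
import Fermat.Agent.PicScheme.Basic

/-!
# Morphisms from the curve given by classes on the two charts
-/

set_option autoImplicit false
set_option linter.checkUnivs false
set_option linter.style.haveILetI false

noncomputable section

universe u

open CategoryTheory CategoryTheory.Limits AlgebraicGeometry AlgebraicGeometry.RelPicard
  NeronModelInfra GoodReductionJacobian

namespace FLTAgent.PicScheme

variable {k : Type u} [Field k] {C : Scheme.{u}} {c : C ⟶ Spec (CommRingCat.of k)}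
  {ε : SchemeHomOver (𝟙 (Spec (CommRingCat.of k))) c}

/-- The dictionary transports classes by base change of data. -/
theorem Dict.map_eq {F : Frame c ε} (Δ : Dict F) {A A' : Type u} [CommRing A] [Algebra k A]
    [CommRing A'] [Algebra k A'] (φ : A →ₐ[k] A') (x : Cls F.X A) :
    Δ.map φ x = Cls.map φ x := by
  induction x using Quot.ind with
  | _ L => exact Δ.map_mk φ L (L.2.map φ)

/-- Morphisms on the two charts which agree on the overlap glue. -/
theorem Frame.exists_glue (F : Frame c ε) {P : Scheme.{u}}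
    (g₁ : Spec (CommRingCat.of F.X.B₁) ⟶ P) (g₂ : Spec (CommRingCat.of F.X.B₂) ⟶ P)
    (h : (specHom F.X.ι₁).1 ≫ g₁ = (specHom F.X.ι₂).1 ≫ g₂) :
    ∃ g : C ⟶ P, F.j₁.1 ≫ g = g₁ ∧ F.j₂.1 ≫ g = g₂ := by
  haveI := F.open₁
  haveI := F.open₂
  let X : Bool → Scheme.{u} := fun b => match b with
    | true => Spec (CommRingCat.of F.X.B₁)
    | false => Spec (CommRingCat.of F.X.B₂)
  let f : ∀ b, X b ⟶ C := fun b => match b with
    | true => F.j₁.1
    | false => F.j₂.1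
  let gs : ∀ b, X b ⟶ P := fun b => match b with
    | true => g₁
    | false => g₂
  have hopen : ∀ b, IsOpenImmersion (f b) := by rintro (_ | _) <;> assumption
  let 𝒰 : C.OpenCover := Scheme.Cover.mkOfCovers Bool X f (fun x => by
    rcases F.cover x with ⟨y, hy⟩ | ⟨y, hy⟩
    · exact ⟨true, y, hy⟩
    · exact ⟨false, y, hy⟩) hopen
  have hh : pullback.fst F.j₁.1 F.j₂.1 ≫ g₁ = pullback.snd F.j₁.1 F.j₂.1 ≫ g₂ := by
    refine (cancel_epi F.inter.isoPullback.hom).1 ?_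
    rw [← Category.assoc, ← Category.assoc, IsPullback.isoPullback_hom_fst,
      IsPullback.isoPullback_hom_snd]
    exact h
  have hf : ∀ x y, pullback.fst (𝒰.f x) (𝒰.f y) ≫ gs x = pullback.snd _ _ ≫ gs y := by
    rintro (_ | _) (_ | _)
    · show pullback.fst F.j₂.1 F.j₂.1 ≫ g₂ = pullback.snd F.j₂.1 F.j₂.1 ≫ g₂
      rw [fst_eq_snd_of_mono_eq]
    · show pullback.fst F.j₂.1 F.j₁.1 ≫ g₂ = pullback.snd F.j₂.1 F.j₁.1 ≫ g₁
      refine (cancel_epi (pullbackSymmetry F.j₁.1 F.j₂.1).hom).1 ?_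
      rw [pullbackSymmetry_hom_comp_fst_assoc, pullbackSymmetry_hom_comp_snd_assoc]
      exact hh.symm
    · exact hh
    · show pullback.fst F.j₁.1 F.j₁.1 ≫ g₁ = pullback.snd F.j₁.1 F.j₁.1 ≫ g₁
      rw [fst_eq_snd_of_mono_eq]
  exact ⟨𝒰.glueMorphisms gs hf, 𝒰.ι_glueMorphisms gs hf true, 𝒰.ι_glueMorphisms gs hf false⟩

/-- The composite of points over the base is associative. -/
theorem postComp_assoc {T T' T'' T''' : Scheme.{u}} {t : T ⟶ Spec (CommRingCat.of k)}
    {t' : T' ⟶ Spec (CommRingCat.of k)} {t'' : T'' ⟶ Spec (CommRingCat.of k)}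
    {t''' : T''' ⟶ Spec (CommRingCat.of k)} (φ : SchemeHomOver t' t) (ψ : SchemeHomOver t'' t')
    (χ : SchemeHomOver t''' t'') :
    postComp (postComp φ ψ) χ = postComp φ (postComp ψ χ) :=
  Subtype.ext (Category.assoc _ _ _).symm

variable {F : Frame c ε} {Δ : Dict F}

/-- Agreeing classes of degree zero on the charts give a morphism to the representing scheme. -/
theorem Rep.exists_fromCharts (R : Rep Δ) (x₁ : Cls F.X F.X.B₁) (x₂ : Cls F.X F.X.B₂)
    (h₁ : x₁.IsZero) (h₂ : x₂.IsZero) (h : Cls.map F.X.ι₁ x₁ = Cls.map F.X.ι₂ x₂) :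
    ∃ φ : SchemeHomOver c R.D.toBase, R.η F.X.B₁ (postComp φ F.j₁) = x₁ ∧
      R.η F.X.B₂ (postComp φ F.j₂) = x₂ := by
  obtain ⟨p₁, hp₁⟩ := R.η_surj _ x₁ h₁
  obtain ⟨p₂, hp₂⟩ := R.η_surj _ x₂ h₂
  have he : postComp p₁ (specHom F.X.ι₁) = postComp p₂ (specHom F.X.ι₂) := by
    apply R.η_injective
    rw [R.η_map, R.η_map, Δ.map_eq, Δ.map_eq, hp₁, hp₂, h]
  obtain ⟨g, hg₁, hg₂⟩ := F.exists_glue p₁.1 p₂.1 (congrArg Subtype.val he)
  have hg : g ≫ R.D.toBase = c := by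
    haveI := F.open₁
    haveI := F.open₂
    refine (Scheme.Cover.hom_ext (Scheme.Cover.mkOfCovers Bool
      (fun b => match b with
        | true => Spec (CommRingCat.of F.X.B₁)
        | false => Spec (CommRingCat.of F.X.B₂))
      (fun b => match b with
        | true => F.j₁.1
        | false => F.j₂.1)
      (fun x => by
        rcases F.cover x with ⟨y, hy⟩ | ⟨y, hy⟩
        · exact ⟨true, y, hy⟩
        · exact ⟨false, y, hy⟩)
      (by rintro (_ | _) <;> assumption)) _ _ ?_)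
    rintro (_ | _)
    · show F.j₂.1 ≫ g ≫ R.D.toBase = F.j₂.1 ≫ c
      rw [← Category.assoc, hg₂, p₂.2, F.j₂.2]
    · show F.j₁.1 ≫ g ≫ R.D.toBase = F.j₁.1 ≫ c
      rw [← Category.assoc, hg₁, p₁.2, F.j₁.2]
  refine ⟨⟨g, hg⟩, ?_, ?_⟩
  · rw [show postComp ⟨g, hg⟩ F.j₁ = p₁ from Subtype.ext hg₁, hp₁]
  · rw [show postComp ⟨g, hg⟩ F.j₂ = p₂ from Subtype.ext hg₂, hp₂]

/-- The class at a point of the first chart. -/
theorem Rep.η_fromCharts (R : Rep Δ) {φ : SchemeHomOver c R.D.toBase} {x₁ : Cls F.X F.X.B₁}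
    (h : R.η F.X.B₁ (postComp φ F.j₁) = x₁) {A : Type u} [CommRing A] [Algebra k A]
    (b : F.X.B₁ →ₐ[k] A) :
    R.η A (postComp φ (postComp F.j₁ (specHom b))) = Cls.map b x₁ := by
  rw [← postComp_assoc, R.η_map, Δ.map_eq, h]

/-- The class at a point of the second chart. -/
theorem Rep.η_fromCharts₂ (R : Rep Δ) {φ : SchemeHomOver c R.D.toBase} {x₂ : Cls F.X F.X.B₂}
    (h : R.η F.X.B₂ (postComp φ F.j₂) = x₂) {A : Type u} [CommRing A] [Algebra k A]
    (b : F.X.B₂ →ₐ[k] A) :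
    R.η A (postComp φ (postComp F.j₂ (specHom b))) = Cls.map b x₂ := by
  rw [← postComp_assoc, R.η_map, Δ.map_eq, h]

/-- The class at a point of the overlap. -/
theorem Rep.η_fromCharts₀ (R : Rep Δ) {φ : SchemeHomOver c R.D.toBase} {x₁ : Cls F.X F.X.B₁}
    (h : R.η F.X.B₁ (postComp φ F.j₁) = x₁) (a : F.X.B₀ →ₐ[k] k) :
    R.η k (postComp φ (postComp F.j₁ (specHom (a.comp F.X.ι₁)))) =
      Cls.map (a.comp F.X.ι₁) x₁ :=
  R.η_fromCharts h _

end FLTAgent.PicScheme
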