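import Mathlib

/-!
# Properness and connectedness through a surjection

A separated scheme, locally of finite type, receiving a surjection from a proper geometrically
connected one has both properties. Over an algebraically closed field connected schemes locally of
finite type are geometrically connected.
-/

set_option autoImplicit false
set_option linter.style.haveILetI false

noncomputable section

universe u

open CategoryTheory Limits AlgebraicGeometry

namespace FLTAgent.PicScheme

variable {Z X S : Scheme.{u}} (g : Z ⟶ X) (f : X ⟶ S)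

/-- Properness passes to the target of a surjection. -/
theorem isProper_of_surjective [Surjective g] [IsSeparated f] [LocallyOfFiniteType f]
    [IsProper (g ≫ f)] : IsProper f := by
  haveI : UniversallyClosed f := UniversallyClosed.of_comp_surjective g f
  exact ⟨⟩

/-- Geometric connectedness passes to the target of a surjection. -/
theorem geometricallyConnected_of_surjective [Surjective g] [GeometricallyConnected (g ≫ f)] :
    GeometricallyConnected f := by
  refine ⟨geometrically_iff_of_isClosedUnderIsomorphisms.mpr fun K _ y => ?_⟩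
  haveI : ConnectedSpace ↥(pullback (g ≫ f) y) :=
    pullback_of_geometrically (GeometricallyConnected.geometrically_connectedSpace (f := g ≫ f)) K y
  let m : pullback (g ≫ f) y ⟶ pullback f y :=
    pullback.map (g ≫ f) y f y g (𝟙 _) (𝟙 _) (by simp) (by simp)
  have hm : Function.Surjective m := by
    rw [← Set.range_eq_univ, Scheme.Pullback.range_map]
    simp [Set.range_eq_univ.2 g.surjective]
  haveI : Nonempty ↥(pullback f y) := ⟨m (Classical.arbitrary _)⟩
  exact hm.connectedSpace m.continuous

/-- Over an algebraically closed field connected schemes locally of finite type are geometrically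
connected. -/
theorem geometricallyConnected_of_isAlgClosed {k : Type u} [Field k] [IsAlgClosed k]
    (x : X ⟶ Spec (CommRingCat.of k)) [LocallyOfFiniteType x] [ConnectedSpace X] :
    GeometricallyConnected x := by
  refine ⟨geometrically_iff_of_isClosedUnderIsomorphisms.mpr fun K _ y => ?_⟩
  haveI : JacobsonSpace X := LocallyOfFiniteType.jacobsonSpace x
  set p := pullback.fst x y
  have hp : IsOpenMap p := p.isOpenMap
  haveI : Surjective y := ⟨fun s => ⟨Classical.arbitrary _, Subsingleton.elim _ _⟩⟩
  have hsurj : Function.Surjective p := p.surjective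
  have hone : ∀ a : X, IsClosed {a} → ∀ u v, p u = a → p v = a → u = v := by
    intro a ha u v hu hv
    set s := pointOfClosedPoint x a ha
    have hs : s ≫ x = 𝟙 _ := pointOfClosedPoint_comp x a ha
    haveI : IsIso (s ≫ x) := by rw [hs]; infer_instance
    haveI : Subsingleton ↥(pullback (s ≫ x) y) :=
      (asIso (pullback.snd (s ≫ x) y)).hom.homeomorph.toEquiv.subsingleton
    let m : pullback (s ≫ x) y ⟶ pullback x y :=
      pullback.map (s ≫ x) y x y s (𝟙 _) (𝟙 _) (by simp) (by simp)
    have hr : ∀ w, p w = a → w ∈ Set.range m := fun w hw => by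
      rw [Scheme.Pullback.range_map]
      exact ⟨⟨Classical.arbitrary _, (pointOfClosedPoint_apply x a ha _).trans hw.symm⟩, ⟨pullback.snd x y w, by simp⟩⟩
    obtain ⟨u', rfl⟩ := hr u hu
    obtain ⟨v', rfl⟩ := hr v hv
    rw [Subsingleton.elim u' v']
  haveI : Nonempty ↥(pullback x y) := ⟨(hsurj (Classical.arbitrary _)).choose⟩
  refine { toPreconnectedSpace := ⟨fun U V hU hV hUV hUne hVne => ?_⟩, toNonempty := inferInstance }
  by_contra hdis
  rw [Set.not_nonempty_iff_eq_empty] at hdis
  obtain ⟨u, -, hu⟩ := hUne
  obtain ⟨v, -, hv⟩ := hVne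
  have hcov : Set.univ ⊆ p '' U ∪ p '' V := fun a _ => by
    obtain ⟨w, rfl⟩ := hsurj a
    exact (hUV (Set.mem_univ w)).imp (Set.mem_image_of_mem p) (Set.mem_image_of_mem p)
  obtain ⟨a, -, haU, haV⟩ := isPreconnected_univ _ _ (hp U hU) (hp V hV) hcov
    ⟨p u, trivial, u, hu, rfl⟩ ⟨p v, trivial, v, hv, rfl⟩
  have hne : ((p '' U) ∩ (p '' V)).Nonempty := ⟨a, haU, haV⟩
  obtain ⟨b, ⟨⟨u', hu', e1⟩, ⟨v', hv', e2⟩⟩, hb⟩ := nonempty_inter_closedPoints hne
    ((hp U hU).inter (hp V hV)).isLocallyClosed
  obtain rfl := hone b hb u' v' e1 e2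
  exact Set.eq_empty_iff_forall_notMem.1 hdis u' ⟨trivial, hu', hv'⟩

end FLTAgent.PicScheme
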