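import Fermat.Agent.PicScheme.Assembly
import Fermat.Agent.PicScheme.Points.Zero
import Fermat.Agent.PicScheme.Props.FromCharts
import Fermat.Agent.PicScheme.Props.Proper

/-!
# The addition on a representing scheme and sums of values of a morphism from the curve

A natural assignment of classes of degree zero to the affine points of a scheme comes from a
morphism to the representing scheme. This gives the addition, hence the sum of `N` values of a
morphism from the curve, defined on the `N`-fold product of the curve, which is proper,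
irreducible and geometrically connected.
-/

set_option autoImplicit false
set_option linter.style.haveILetI false
set_option linter.checkUnivs false
set_option backward.isDefEq.respectTransparency false
set_option backward.isDefEq.respectTransparency.types false

noncomputable section

universe u

open CategoryTheory CategoryTheory.Limits AlgebraicGeometry AlgebraicGeometry.RelPicard
  NeronModelInfra GoodReductionJacobian

namespace FLTAgent.PicScheme

variable {k : Type u} [Field k] {C : Scheme.{u}} {c : C ⟶ Spec (CommRingCat.of k)}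
  {ε : SchemeHomOver (𝟙 (Spec (CommRingCat.of k))) c} {F : Frame c ε} {Δ : Dict F}

/-- Natural degree zero classes at affine points come from a morphism. -/
theorem Rep.exists_morphism (R : Rep Δ) {T : Scheme.{u}} (t : T ⟶ Spec (CommRingCat.of k))
    (ξ : ∀ (A : Type u) [CommRing A] [Algebra k A], SchemeHomOver (specT k A) t → Cls F.X A)
    (hz : ∀ (A : Type u) [CommRing A] [Algebra k A] (p : SchemeHomOver (specT k A) t),
      (ξ A p).IsZero)
    (hnat : ∀ {A A' : Type u} [CommRing A] [Algebra k A] [CommRing A'] [Algebra k A']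
      (φ : A →ₐ[k] A') (p : SchemeHomOver (specT k A) t),
        ξ A' (postComp p (specHom φ)) = Cls.map φ (ξ A p)) :
    ∃ g : SchemeHomOver t R.D.toBase,
      ∀ (A : Type u) [CommRing A] [Algebra k A] (p : SchemeHomOver (specT k A) t),
        R.η A (postComp g p) = ξ A p := by
  choose inst hinst using fun U : T.affineOpens => exists_algebra_point t U.2
  have hpt : ∀ U : T.affineOpens, letI := inst U
      ∃ g : SchemeHomOver (specT k Γ(T, U.1)) R.D.toBase,
        R.η _ g = ξ _ ⟨U.2.fromSpec, hinst U⟩ := fun U => by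
    letI := inst U
    exact R.η_surj _ _ (hz _ _)
  choose g hg using hpt
  have hagree : ∀ (U : T.affineOpens) (A : Type u) [CommRing A] [Algebra k A]
      (p : SchemeHomOver (specT k A) t) (a : Spec (CommRingCat.of A) ⟶ Spec Γ(T, U.1)),
      a ≫ U.2.fromSpec = p.1 →
        ∃ h, R.η A ⟨a ≫ (g U).1, h⟩ = ξ A p := by
    intro U A _ _ p a ha
    letI := inst U
    obtain ⟨φ, hφ⟩ := Spec.map_surjective a
    have hφk : φ.hom.comp (algebraMap k Γ(T, U.1)) = algebraMap k A := by
      have h1 : a ≫ specT k Γ(T, U.1) = specT k A := by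
        rw [← hinst U, ← Category.assoc, ha, p.2]
      rw [← hφ, specT, specT, ← Spec.map_comp] at h1
      exact congrArg CommRingCat.Hom.hom (Spec.map_injective h1)
    let ψ : Γ(T, U.1) →ₐ[k] A :=
      { φ.hom with commutes' := fun x => RingHom.congr_fun hφk x }
    have hψ : (specHom ψ).1 = a := hφ
    refine ⟨by rw [Category.assoc, (g U).2, ← hinst U, ← Category.assoc, ha, p.2], ?_⟩
    have h2 := R.η_map ψ (g U)
    rw [hg U, Δ.map_eq, ← hnat] at h2
    convert h2 using 2
    · exact Subtype.ext (by show _ = (specHom ψ).1 ≫ (g U).1; rw [hψ])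
    · exact Subtype.ext (by show p.1 = (specHom ψ).1 ≫ U.2.fromSpec; rw [hψ, ha])
  let 𝒰 : T.OpenCover := T.openCoverOfIsOpenCover (fun U : T.affineOpens => U.1)
    (TopologicalSpace.IsOpenCover.mk (iSup_affineOpens_eq_top T))
  let h : ∀ U : T.affineOpens, 𝒰.X U ⟶ R.D.P := fun U => U.2.isoSpec.hom ≫ (g U).1
  have hι : ∀ U : T.affineOpens, U.2.isoSpec.hom ≫ U.2.fromSpec = 𝒰.f U := fun U =>
    U.2.isoSpec_hom_fromSpec
  have hb : ∀ U : T.affineOpens, h U ≫ R.D.toBase = 𝒰.f U ≫ t := fun U =>
    (Category.assoc _ _ _).trans (((congrArg (U.2.isoSpec.hom ≫ ·)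
      ((g U).2.trans (hinst U).symm)).trans (Category.assoc _ _ _).symm).trans
        (congrArg (· ≫ t) (hι U)))
  have hov : ∀ U V : T.affineOpens,
      pullback.fst (𝒰.f U) (𝒰.f V) ≫ h U = pullback.snd (𝒰.f U) (𝒰.f V) ≫ h V := by
    intro U V
    refine R.hom_ext (pullback.fst (𝒰.f U) (𝒰.f V) ≫ 𝒰.f U ≫ t)
      (by rw [Category.assoc, hb])
      (by rw [Category.assoc, hb, ← Category.assoc, ← pullback.condition, Category.assoc])
      fun A _ _ q => ?_
    let p : SchemeHomOver (specT k A) t :=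
      ⟨q.1 ≫ pullback.fst (𝒰.f U) (𝒰.f V) ≫ 𝒰.f U, by simpa using q.2⟩
    obtain ⟨_, e1⟩ := hagree U A p (q.1 ≫ pullback.fst _ _ ≫ U.2.isoSpec.hom)
      ((Category.assoc _ _ _).trans (congrArg (q.1 ≫ ·)
        ((Category.assoc _ _ _).trans (congrArg (pullback.fst (𝒰.f U) (𝒰.f V) ≫ ·) (hι U)))))
    obtain ⟨_, e2⟩ := hagree V A p (q.1 ≫ pullback.snd _ _ ≫ V.2.isoSpec.hom)
      ((Category.assoc _ _ _).trans (congrArg (q.1 ≫ ·)
        (((Category.assoc _ _ _).trans
          (congrArg (pullback.snd (𝒰.f U) (𝒰.f V) ≫ ·) (hι V))).trans pullback.condition.symm)))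
    simp only [Category.assoc] at e1 e2
    exact e1.trans e2.symm
  let G : T ⟶ R.D.P := 𝒰.glueMorphisms h hov
  have hG : ∀ U : T.affineOpens, 𝒰.f U ≫ G = h U := fun U => 𝒰.ι_glueMorphisms h hov U
  have hGb : G ≫ R.D.toBase = t := Scheme.Cover.hom_ext 𝒰 _ _ fun U =>
    (Category.assoc _ _ _).symm.trans ((congrArg (· ≫ R.D.toBase) (hG U)).trans (hb U))
  refine ⟨⟨G, hGb⟩, fun A _ _ p => ?_⟩
  obtain ⟨q, hq⟩ := R.η_surj A _ (hz A p)
  rw [← hq]
  congr 1
  refine Subtype.ext ?_
  show p.1 ≫ G = q.1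
  refine Scheme.Cover.hom_ext (𝒰.pullback₁ p.1) _ _ fun U => ?_
  have hsq : (𝒰.pullback₁ p.1).f U ≫ p.1 = pullback.snd p.1 (𝒰.f U) ≫ 𝒰.f U :=
    pullback.condition
  refine R.hom_ext ((𝒰.pullback₁ p.1).f U ≫ specT k A)
    (by rw [Category.assoc, Category.assoc, hGb, p.2]) (by rw [Category.assoc, q.2])
    fun A' _ _ a => ?_
  obtain ⟨φ, hφ⟩ := Spec.map_surjective (a.1 ≫ (𝒰.pullback₁ p.1).f U)
  have hφk : φ.hom.comp (algebraMap k A) = algebraMap k A' := by
    have h1 : Spec.map φ ≫ specT k A = specT k A' := by rw [hφ, Category.assoc, a.2]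
    rw [specT, specT, ← Spec.map_comp] at h1
    exact congrArg CommRingCat.Hom.hom (Spec.map_injective h1)
  let ψ : A →ₐ[k] A' := { φ.hom with commutes' := fun x => RingHom.congr_fun hφk x }
  have hψ : (specHom ψ).1 = a.1 ≫ (𝒰.pullback₁ p.1).f U := hφ
  obtain ⟨_, e1⟩ := hagree U A' (postComp p (specHom ψ))
    (a.1 ≫ pullback.snd p.1 (𝒰.f U) ≫ U.2.isoSpec.hom)
    ((((Category.assoc _ _ _).trans (congrArg (a.1 ≫ ·)
      ((Category.assoc _ _ _).trans (congrArg (pullback.snd p.1 (𝒰.f U) ≫ ·) (hι U))))).trans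
      ((congrArg (a.1 ≫ ·) hsq.symm).trans (Category.assoc _ _ _).symm)).trans
      (congrArg (· ≫ p.1) hψ.symm))
  have e2 := R.η_map ψ q
  rw [hq, Δ.map_eq, ← hnat] at e2
  refine Eq.trans ?_ ((e1.trans e2.symm).trans ?_)
  · congr 1
    refine Subtype.ext ?_
    exact congrArg (a.1 ≫ ·) ((Category.assoc _ _ _).symm.trans
      ((congrArg (· ≫ G) hsq).trans ((Category.assoc _ _ _).trans
        (congrArg (pullback.snd p.1 (𝒰.f U) ≫ ·) (hG U)))))
  · congr 1
    exact Subtype.ext (by
      show (specHom ψ).1 ≫ q.1 = a.1 ≫ (𝒰.pullback₁ p.1).f U ≫ q.1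
      rw [hψ, Category.assoc])

/-- The first projection over the base. -/
def fstOver {X Y : Scheme.{u}} (x : X ⟶ Spec (CommRingCat.of k)) (y : Y ⟶ Spec (CommRingCat.of k)) :
    SchemeHomOver (pullback.fst x y ≫ x) x :=
  ⟨pullback.fst x y, rfl⟩

/-- The second projection over the base. -/
def sndOver {X Y : Scheme.{u}} (x : X ⟶ Spec (CommRingCat.of k)) (y : Y ⟶ Spec (CommRingCat.of k)) :
    SchemeHomOver (pullback.fst x y ≫ x) y :=
  ⟨pullback.snd x y, pullback.condition.symm⟩

/-- A pair of points over the base. -/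
def pairOver {T X Y : Scheme.{u}} {t : T ⟶ Spec (CommRingCat.of k)}
    {x : X ⟶ Spec (CommRingCat.of k)} {y : Y ⟶ Spec (CommRingCat.of k)}
    (p : SchemeHomOver t x) (q : SchemeHomOver t y) : SchemeHomOver t (pullback.fst x y ≫ x) :=
  ⟨pullback.lift p.1 q.1 (p.2.trans q.2.symm), by rw [pullback.lift_fst_assoc]; exact p.2⟩

theorem postComp_fstOver {T X Y : Scheme.{u}} {t : T ⟶ Spec (CommRingCat.of k)}
    {x : X ⟶ Spec (CommRingCat.of k)} {y : Y ⟶ Spec (CommRingCat.of k)}
    (p : SchemeHomOver t x) (q : SchemeHomOver t y) :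
    postComp (fstOver x y) (pairOver p q) = p :=
  Subtype.ext (pullback.lift_fst _ _ _)

theorem postComp_sndOver {T X Y : Scheme.{u}} {t : T ⟶ Spec (CommRingCat.of k)}
    {x : X ⟶ Spec (CommRingCat.of k)} {y : Y ⟶ Spec (CommRingCat.of k)}
    (p : SchemeHomOver t x) (q : SchemeHomOver t y) :
    postComp (sndOver x y) (pairOver p q) = q :=
  Subtype.ext (pullback.lift_snd _ _ _)

variable [IsAlgClosed k] [IsProper c] [SmoothOfRelativeDimension 1 c] [IsIntegral C]

/-- The addition of a representing scheme. -/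
theorem Rep.exists_add (R : Rep Δ) :
    ∃ μ : SchemeHomOver (pullback.fst R.D.toBase R.D.toBase ≫ R.D.toBase) R.D.toBase,
      ∀ (A : Type u) [CommRing A] [Algebra k A] (p q : SchemeHomOver (specT k A) R.D.toBase),
        R.η A (postComp μ (pairOver p q)) = R.η A p * R.η A q := by
  obtain ⟨μ, hμ⟩ := R.exists_morphism (pullback.fst R.D.toBase R.D.toBase ≫ R.D.toBase)
    (fun A _ _ r => R.η A (postComp (fstOver _ _) r) * R.η A (postComp (sndOver _ _) r))
    (fun A _ _ r => F.isZero_mul (R.η_zero _ _) (R.η_zero _ _))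
    (fun φ r => by
      simp only [← postComp_assoc, R.η_map, Δ.map_eq, Cls.map_mul])
  exact ⟨μ, fun A _ _ p q => by
    rw [hμ, postComp_fstOver, postComp_sndOver]⟩

omit [IsProper c] [SmoothOfRelativeDimension 1 c] [IsIntegral C] in
/-- Over an algebraically closed field a product of irreducible schemes locally of finite type is
irreducible. -/
theorem irreducibleSpace_pullback {X Y : Scheme.{u}} (x : X ⟶ Spec (CommRingCat.of k))
    (y : Y ⟶ Spec (CommRingCat.of k)) [LocallyOfFiniteType x] [IrreducibleSpace X]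
    [IrreducibleSpace Y] : IrreducibleSpace ↥(pullback x y) := by
  haveI : JacobsonSpace X := LocallyOfFiniteType.jacobsonSpace x
  set p := pullback.fst x y
  have hp : IsOpenMap p := p.isOpenMap
  haveI : Surjective y := ⟨fun s => ⟨Classical.arbitrary _, Subsingleton.elim _ _⟩⟩
  haveI : Nonempty ↥(pullback x y) :=
    ⟨(p.surjective (Classical.arbitrary _)).choose⟩
  refine { toPreirreducibleSpace := ⟨fun U V hU hV hUne hVne => ?_⟩, toNonempty := inferInstance }
  obtain ⟨u, -, hu⟩ := hUne
  obtain ⟨v, -, hv⟩ := hVne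
  have hne : ((p '' U) ∩ (p '' V)).Nonempty :=
    nonempty_preirreducible_inter (hp U hU) (hp V hV) ⟨p u, u, hu, rfl⟩ ⟨p v, v, hv, rfl⟩
  obtain ⟨b, ⟨⟨u', hu', e1⟩, ⟨v', hv', e2⟩⟩, hb⟩ := nonempty_inter_closedPoints hne
    ((hp U hU).inter (hp V hV)).isLocallyClosed
  let s := pointOfClosedPoint x b hb
  have hs : s ≫ x = 𝟙 _ := pointOfClosedPoint_comp x b hb
  let m : Y ⟶ pullback x y := pullback.lift (y ≫ s) (𝟙 _)
    (by rw [Category.assoc, hs, Category.comp_id, Category.id_comp])
  have hr : ∀ w, p w = b → w ∈ Set.range m := by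
    intro w hw
    haveI : IsIso (s ≫ x) := by rw [hs]; infer_instance
    let mm : pullback (s ≫ x) y ⟶ pullback x y :=
      pullback.map (s ≫ x) y x y s (𝟙 _) (𝟙 _) (by simp) (by simp)
    have hmem : w ∈ Set.range mm := by
      rw [Scheme.Pullback.range_map]
      exact ⟨⟨Classical.arbitrary _, (pointOfClosedPoint_apply x b hb _).trans hw.symm⟩,
        ⟨pullback.snd x y w, by simp⟩⟩
    obtain ⟨z, rfl⟩ := hmem
    refine ⟨pullback.snd (s ≫ x) y z, ?_⟩
    have hmm : pullback.snd (s ≫ x) y ≫ m = mm := by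
      have hc := pullback.condition (f := s ≫ x) (g := y)
      rw [← Category.assoc] at hc
      apply pullback.hom_ext
      · simp only [m, mm, Category.assoc, pullback.lift_fst]
        rw [← Category.assoc, ← hc, Category.assoc, Category.assoc, reassoc_of% hs]
      · simp [m, mm]
    rw [← hmm]
    rfl
  obtain ⟨yu, hyu⟩ := hr u' e1
  obtain ⟨yv, hyv⟩ := hr v' e2
  obtain ⟨w, hwu, hwv⟩ := nonempty_preirreducible_inter
    (hU.preimage m.continuous) (hV.preimage m.continuous)
    ⟨yu, by rw [Set.mem_preimage, hyu]; exact hu'⟩ ⟨yv, by rw [Set.mem_preimage, hyv]; exact hv'⟩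
  exact ⟨m w, trivial, hwu, hwv⟩

/-- Sums of `N` values of a morphism from the curve: a proper, irreducible, geometrically
connected source. -/
theorem Rep.exists_sum (R : Rep Δ) (φ : SchemeHomOver c R.D.toBase) (N : ℕ) :
    ∃ (Z : Scheme.{u}) (z : Z ⟶ Spec (CommRingCat.of k)) (f : SchemeHomOver z R.D.toBase),
      IsProper z ∧ GeometricallyConnected z ∧ IrreducibleSpace Z ∧
      ∀ Q : Fin N → SchemeHomOver (specT k k) c, ∃ q : SchemeHomOver (specT k k) z,
        R.η k (postComp f q) = ∏ i, R.η k (postComp φ (Q i)) := by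
  suffices h : ∃ (Z : Scheme.{u}) (z : Z ⟶ Spec (CommRingCat.of k))
      (f : SchemeHomOver z R.D.toBase), IsProper z ∧ IrreducibleSpace Z ∧
      ∀ Q : Fin N → SchemeHomOver (specT k k) c, ∃ q : SchemeHomOver (specT k k) z,
        R.η k (postComp f q) = ∏ i, R.η k (postComp φ (Q i)) by
    obtain ⟨Z, z, f, hp, hi, hQ⟩ := h
    haveI := hp
    haveI := hi
    exact ⟨Z, z, f, hp, geometricallyConnected_of_isAlgClosed z, hi, hQ⟩
  induction N with
  | zero =>
    refine ⟨Spec (CommRingCat.of k), specT k k, ⟨specT k k ≫ R.D.zeroSection, by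
      rw [Category.assoc, R.D.zeroSection_toBase, Category.comp_id]⟩, ?_, ?_, fun Q => ?_⟩
    · rw [specT_self]; infer_instance
    · exact inferInstanceAs (IrreducibleSpace (PrimeSpectrum k))
    · obtain ⟨h, he⟩ := R.η_base k
      refine ⟨⟨𝟙 _, Category.id_comp _⟩, ?_⟩
      rw [Finset.univ_eq_empty, Finset.prod_empty, Cls.one_eq, ← he]
      congr 1
  | succ N ih =>
    obtain ⟨Z, z, f, hp, hi, hQ⟩ := ih
    obtain ⟨μ, hμ⟩ := R.exists_add
    haveI := hp
    haveI := hi
    let z' := pullback.fst z c ≫ z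
    let f' : SchemeHomOver z' R.D.toBase :=
      postComp μ (pairOver (postComp f (fstOver z c)) (postComp φ (sndOver z c)))
    refine ⟨pullback z c, z', f', inferInstance, irreducibleSpace_pullback z c, fun Q => ?_⟩
    obtain ⟨q, hq⟩ := hQ fun i => Q i.castSucc
    refine ⟨pairOver q (Q (Fin.last N)), ?_⟩
    rw [Fin.prod_univ_castSucc, ← hq, ← hμ]
    congr 1
    refine Subtype.ext ?_
    apply Eq.trans (Category.assoc _ _ _).symm
    refine congrArg (· ≫ μ.1) ?_
    apply pullback.hom_ext <;> simp [pairOver, fstOver, sndOver, postComp]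

end FLTAgent.PicScheme
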