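import Fermat.Agent.PicScheme.Props.Cover
import Fermat.Agent.PicScheme.Props.Mul
import Fermat.Agent.PicScheme.Abel.Main

/-!
# Layer E from the decomposition of classes into classes of points
-/

set_option autoImplicit false
set_option linter.checkUnivs false
set_option linter.style.haveILetI false

noncomputable section

universe u

open CategoryTheory CategoryTheory.Limits AlgebraicGeometry AlgebraicGeometry.RelPicard
  NeronModelInfra GoodReductionJacobian

namespace FLTAgent.PicScheme

variable {k : Type u} [Field k] [IsAlgClosed k] {C : Scheme.{u}}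
  {c : C ⟶ Spec (CommRingCat.of k)} [IsProper c] [SmoothOfRelativeDimension 1 c] [IsIntegral C]
  {ε : SchemeHomOver (𝟙 (Spec (CommRingCat.of k))) c}

/-- Classes of degree zero over the ground field are products of a bounded number of differences
of classes of points of the overlap. -/
def Frame.Decomposes (F : Frame c ε) : Prop :=
  ∀ (D : ∀ P : F.X.B₀ →ₐ[k] k, PtData F.X P) (P₀ : F.X.B₀ →ₐ[k] k), ∃ N : ℕ,
    ∀ x : Cls F.X k, x.IsZero → ∃ P : Fin N → (F.X.B₀ →ₐ[k] k),
      x = ∏ i, ((Cls.of ⟨(D (P i)).base k, Datum.base_isRigidifiable (D (P i)) k⟩)⁻¹ *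
        Cls.of ⟨(D P₀).base k, Datum.base_isRigidifiable (D P₀) k⟩)

/-- The properties of a representing scheme from the decomposition of classes. -/
theorem Rep.props_of_decomposes {F : Frame c ε} {Δ : Dict F} (R : Rep Δ) (h : F.Decomposes) :
    Smooth R.D.toBase ∧ IsProper R.D.toBase ∧ GeometricallyConnected R.D.toBase ∧
      GeometricallyIntegral R.D.toBase := by
  obtain ⟨P₀⟩ := F.exists_point₀
  obtain ⟨D, x₁, x₂, h₁, h₂, h₀, hx⟩ := F.exists_abel P₀
  obtain ⟨φ, hφ₁, -⟩ := R.exists_fromCharts x₁ x₂ h₁ h₂ h₀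
  obtain ⟨N, hN⟩ := h D P₀
  obtain ⟨Z, z, f, hz, -, hirr, hsum⟩ := R.exists_sum φ N
  refine R.props_of_cover z f fun x hxz => ?_
  obtain ⟨P, rfl⟩ := hN x hxz
  obtain ⟨q, hq⟩ := hsum fun i => postComp F.j₁ (specHom ((P i).comp F.X.ι₁))
  refine ⟨q, hq.trans (Finset.prod_congr rfl fun i _ => ?_)⟩
  rw [R.η_fromCharts₀ hφ₁ (P i), hx]

/-- Layer E from the decomposition. -/
theorem targetProps_of
    (h : ∀ (k : Type u) [Field k] [IsAlgClosed k] {C : Scheme.{u}}
      {c : C ⟶ Spec (CommRingCat.of k)} [IsProper c] [SmoothOfRelativeDimension 1 c] [IsIntegral C]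
      {ε : SchemeHomOver (𝟙 (Spec (CommRingCat.of k))) c} (F : Frame c ε), F.Decomposes) :
    TargetProps.{u} := by
  intro k _ _ C c _ _ _ ε F Δ R
  exact R.props_of_decomposes (h k F)

end FLTAgent.PicScheme
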