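import Fermat.Agent.AV.Scheme.Chart
import Fermat.Agent.AV.Curve.Domain

/-!
# Smooth irreducible schemes over an algebraically closed field are geometrically integral
-/

set_option autoImplicit false
set_option linter.style.haveILetI false

noncomputable section

universe u

open CategoryTheory Limits AlgebraicGeometry TensorProduct

namespace FLTAgent.PicScheme

/-- A smooth scheme over a field is reduced. -/
theorem isReduced_of_smooth {K : Type u} [Field K] {X : Scheme.{u}}
    (f : X ⟶ Spec (CommRingCat.of K)) [Smooth f] : IsReduced X := by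
  haveI : ∀ x : X, _root_.IsReduced (X.presheaf.stalk x) := fun x => by
    obtain ⟨U, -, V, hV, hx, e, h⟩ := Smooth.exists_isStandardSmooth f x
    obtain rfl : U = ⊤ := top_unique fun y _ => by
      rw [Subsingleton.elim (α := PrimeSpectrum K) y (f x)]
      exact e hx
    have h' : ((Scheme.ΓSpecIso (CommRingCat.of K)).inv ≫ f.appLE ⊤ V le_top).hom.IsStandardSmooth :=
      (RingHom.isStandardSmooth_respectsIso.cancel_left_isIso
        (Scheme.ΓSpecIso (CommRingCat.of K)).inv (f.appLE ⊤ V le_top)).2 h
    set ψ := ((Scheme.ΓSpecIso (CommRingCat.of K)).inv ≫ f.appLE ⊤ V le_top).hom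
    letI : Algebra K Γ(X, V) := ψ.toAlgebra
    haveI : Algebra.IsStandardSmooth K Γ(X, V) := h'
    obtain ⟨ι, σ, _, _, ⟨P⟩⟩ := (inferInstance : Algebra.IsStandardSmooth K Γ(X, V))
    haveI : Algebra.IsStandardSmoothOfRelativeDimension P.dimension K Γ(X, V) :=
      ⟨ι, σ, inferInstance, inferInstance, P, rfl⟩
    obtain ⟨φ, -, hφ⟩ := RingHom.IsStandardSmoothOfRelativeDimension.exists_etale_mvPolynomial
      (f := ψ) (n := P.dimension) this
    letI : Algebra (MvPolynomial (Fin P.dimension) K) Γ(X, V) := φ.toAlgebra
    haveI : Algebra.Etale (MvPolynomial (Fin P.dimension) K) Γ(X, V) := hφ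
    letI : Algebra Γ(X, V) (X.presheaf.stalk x) := (X.presheaf.germ V x hx).hom.toAlgebra
    haveI : IsLocalization.AtPrime (X.presheaf.stalk x) (hV.primeIdealOf ⟨x, hx⟩).asIdeal :=
      hV.isLocalization_stalk ⟨x, hx⟩
    exact isReduced_localizationPreserves (hV.primeIdealOf ⟨x, hx⟩).asIdeal.primeCompl
      (X.presheaf.stalk x) (AV.Chart.isReduced K P.dimension Γ(X, V))
  exact isReduced_of_isReduced_stalk X

variable {k : Type u} [Field k] [IsAlgClosed k]

/-- Fields over an algebraically closed field are geometrically irreducible. -/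
theorem geometricallyIrreducible_spec_field {K : Type u} [Field K]
    (y : Spec (CommRingCat.of K) ⟶ Spec (CommRingCat.of k)) : GeometricallyIrreducible y := by
  refine ⟨geometrically_iff_of_isClosedUnderIsomorphisms.mpr fun L _ z => ?_⟩
  obtain ⟨φ, rfl⟩ := Spec.map_surjective y
  obtain ⟨ψ, rfl⟩ := Spec.map_surjective z
  letI : Algebra k K := φ.hom.toAlgebra
  letI : Algebra k L := ψ.hom.toAlgebra
  haveI := AV.tensor_isDomain (K := k) K L
  haveI : IrreducibleSpace ↥(Spec (CommRingCat.of (K ⊗[k] L))) :=
    inferInstanceAs (IrreducibleSpace (PrimeSpectrum (K ⊗[k] L)))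
  exact (pullbackSpecIso k K L).symm.hom.homeomorph.surjective.irreducibleSpace
    (pullbackSpecIso k K L).symm.hom.homeomorph.continuous

variable {X : Scheme.{u}} (x : X ⟶ Spec (CommRingCat.of k))

/-- A smooth irreducible scheme over an algebraically closed field is geometrically integral. -/
theorem geometricallyIntegral_of_smooth [Smooth x] [IrreducibleSpace X] :
    GeometricallyIntegral x := by
  haveI : GeometricallyIrreducible x :=
    ⟨geometrically_iff_of_isClosedUnderIsomorphisms.mpr fun K _ y => by
      haveI := geometricallyIrreducible_spec_field y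
      infer_instance⟩
  haveI : GeometricallyReduced x :=
    ⟨geometrically_iff_of_isClosedUnderIsomorphisms.mpr fun K _ y =>
      isReduced_of_smooth (pullback.snd x y)⟩
  exact GeometricallyIntegral.of_geometricallyReduced_of_geometricallyIrreducible x

end FLTAgent.PicScheme
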