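import Fermat.Agent.PicScheme.Lift
import Fermat.Agent.PicScheme.Interface

/-!
# A representing scheme is smooth

Classes of degree zero lift along square-zero thickenings.
-/

set_option autoImplicit false
set_option linter.checkUnivs false
set_option linter.style.haveILetI false

noncomputable section

universe u

open CategoryTheory CategoryTheory.Limits AlgebraicGeometry AlgebraicGeometry.RelPicard
  NeronModelInfra GoodReductionJacobian

namespace FLTAgent.PicScheme

variable {k : Type u} [Field k] {C : Scheme.{u}} {c : C ⟶ Spec (CommRingCat.of k)}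
  {ε : SchemeHomOver (𝟙 (Spec (CommRingCat.of k))) c} {F : Frame c ε} {Δ : Dict F}

/-- Classes of degree zero lift along square-zero thickenings. -/
theorem Dict.exists_lift_isZero (Δ : Dict F) {B B' : Type u} [CommRing B] [Algebra k B]
    [CommRing B'] [Algebra k B'] (φ : B →ₐ[k] B') (hφ : Function.Surjective φ)
    (hsq : ∀ x y, φ x = 0 → φ y = 0 → x * y = 0) {x : Cls F.X B'} (hx : x.IsZero) :
    ∃ y : Cls F.X B, y.IsZero ∧ Δ.map φ y = x := by
  obtain ⟨L', rfl, hdeg⟩ := hx
  obtain ⟨L, hL⟩ := Datum.exists_lift φ hφ hsq L'.1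
  have hr' : (L.map φ).IsRigidifiable := by rw [hL]; exact L'.2
  refine ⟨Quot.mk _ ⟨L, Datum.IsRigidifiable.of_map φ hsq hφ hr'⟩,
    ⟨⟨L, Datum.IsRigidifiable.of_map φ hsq hφ hr'⟩, rfl, fun K _ _ _ ψ => ?_⟩, ?_⟩
  · have hker : ∀ a, φ a = 0 → ψ a = 0 := fun a ha => by
      have h := congrArg ψ (hsq a a ha ha)
      rw [map_mul, map_zero] at h
      exact mul_self_eq_zero.1 h
    let ψ' : B' →ₐ[k] K :=
      (Ideal.Quotient.liftₐ (RingHom.ker φ.toRingHom) ψ fun a ha => hker a ha).comp
        (Ideal.quotientKerAlgEquivOfSurjective hφ).symm.toAlgHom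
    have hψ : ψ'.comp φ = ψ := AlgHom.ext fun a => by
      have : (Ideal.quotientKerAlgEquivOfSurjective hφ).symm (φ a) = Ideal.Quotient.mk _ a :=
        (AlgEquiv.symm_apply_eq _).2 rfl
      show (Ideal.Quotient.liftₐ (RingHom.ker φ.toRingHom) ψ fun a ha => hker a ha) ((Ideal.quotientKerAlgEquivOfSurjective hφ).symm (φ a)) = _
      rw [this]
      rfl
    rw [← hψ, Datum.map_comp, hL]
    exact hdeg K ψ'
  · rw [Δ.map_mk φ ⟨L, Datum.IsRigidifiable.of_map φ hsq hφ hr'⟩ hr']
    exact congrArg (Quot.mk _) (Subtype.ext hL)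

/-- Points of a representing scheme in an affine open lift along square-zero thickenings. -/
theorem Rep.formallySmooth (R : Rep Δ) {A : Type u} [CommRing A] [Algebra k A]
    (j : SchemeHomOver (specT k A) R.D.toBase) [IsOpenImmersion j.1] :
    Algebra.FormallySmooth k A := by
  rw [Algebra.FormallySmooth.iff_comp_surjective]
  intro B _ _ I hI f
  have hφ : Function.Surjective (Ideal.Quotient.mkₐ k I) := Ideal.Quotient.mkₐ_surjective k I
  have hsq : ∀ x y, Ideal.Quotient.mkₐ k I x = 0 → Ideal.Quotient.mkₐ k I y = 0 → x * y = 0 := by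
    intro x y hx hy
    have h := Ideal.mul_mem_mul (Ideal.Quotient.eq_zero_iff_mem.1 hx)
      (Ideal.Quotient.eq_zero_iff_mem.1 hy)
    rwa [← pow_two, hI, Ideal.mem_bot] at h
  obtain ⟨y, hy, hyx⟩ := Δ.exists_lift_isZero (Ideal.Quotient.mkₐ k I) hφ hsq
    (R.η_zero _ (postComp j (specHom f)))
  obtain ⟨p, hp⟩ := R.η_surj B y hy
  have hpq : postComp p (specHom (Ideal.Quotient.mkₐ k I)) = postComp j (specHom f) :=
    R.η_injective _ (by rw [R.η_map, hp, hyx])
  have hrange : Set.range p.1 ⊆ Set.range j.1 := by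
    rintro _ ⟨w, rfl⟩
    obtain ⟨w', hw'⟩ : ∃ w', (specHom (Ideal.Quotient.mkₐ k I)).1 w' = w := by
      haveI := w.isPrime
      have hle : I ≤ w.asIdeal := fun a ha => by
        have h2 : a ^ 2 ∈ I ^ 2 := Ideal.pow_mem_pow ha 2
        rw [hI, Ideal.mem_bot] at h2
        exact w.isPrime.mem_of_pow_mem 2 (by rw [h2]; exact zero_mem _)
      exact ⟨⟨w.asIdeal.map (Ideal.Quotient.mk I),
        Ideal.map_isPrime_of_surjective Ideal.Quotient.mk_surjective (by rwa [Ideal.mk_ker])⟩,
        PrimeSpectrum.ext ((Ideal.comap_map_of_surjective _ Ideal.Quotient.mk_surjective _).trans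
          (by rw [← RingHom.ker_eq_comap_bot, Ideal.mk_ker]; exact sup_eq_left.2 hle))⟩
    refine ⟨(specHom f).1 w', ?_⟩
    have h := congrArg (fun s => s.1 w') hpq
    simp only [postComp, Scheme.Hom.comp_apply, hw'] at h
    exact h.symm
  let l := IsOpenImmersion.lift j.1 p.1 hrange
  have hl : l ≫ j.1 = p.1 := IsOpenImmersion.lift_fac _ _ _
  obtain ⟨g, hg⟩ := Spec.map_surjective l
  have hgk : g.hom.comp (algebraMap k A) = algebraMap k B := by
    have h : Spec.map g ≫ specT k A = specT k B := by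
      rw [hg, ← j.2, ← Category.assoc, hl, p.2]
    rw [specT, specT, ← Spec.map_comp] at h
    exact congrArg CommRingCat.Hom.hom (Spec.map_injective h)
  let g' : A →ₐ[k] B := { g.hom with commutes' := fun z => RingHom.congr_fun hgk z }
  refine ⟨g', ?_⟩
  have h1 : Spec.map (CommRingCat.ofHom ((Ideal.Quotient.mkₐ k I).comp g').toRingHom) ≫ j.1 =
      Spec.map (CommRingCat.ofHom f.toRingHom) ≫ j.1 := by
    rw [show Spec.map (CommRingCat.ofHom f.toRingHom) ≫ j.1 =
      (specHom (Ideal.Quotient.mkₐ k I)).1 ≫ p.1 from (congrArg Subtype.val hpq).symm, ← hl, ← hg,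
      ← Category.assoc, specHom, ← Spec.map_comp]
    rfl
  have h2 := congrArg CommRingCat.Hom.hom (Spec.map_injective ((cancel_mono j.1).1 h1))
  exact AlgHom.ext fun a => RingHom.congr_fun h2 a

/-- A representing scheme is smooth. -/
theorem Rep.smooth (R : Rep Δ) : Smooth R.D.toBase := by
  haveI := R.lft
  refine (HasRingHomProperty.iff_of_source_openCover (P := @Smooth.{u}) R.D.P.affineCover).2
    fun i => ?_
  suffices hi : Smooth (R.D.P.affineCover.f i ≫ R.D.toBase) from
    HasRingHomProperty.appTop (P := @Smooth.{u}) _ hi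
  obtain ⟨A, hA⟩ : ∃ A : CommRingCat.{u}, R.D.P.affineCover.X i = Spec A := ⟨_, rfl⟩
  obtain ⟨φ, hφ⟩ := Spec.map_surjective (eqToHom hA.symm ≫ R.D.P.affineCover.f i ≫ R.D.toBase)
  letI : Algebra k A := φ.hom.toAlgebra
  haveI : Algebra.FormallySmooth k A :=
    R.formallySmooth (A := A) ⟨eqToHom hA.symm ≫ R.D.P.affineCover.f i, by
      rw [Category.assoc]; exact hφ.symm⟩
  have hft : LocallyOfFiniteType (Spec.map φ) := by
    rw [hφ]; infer_instance
  haveI : Algebra.FiniteType k A := (HasRingHomProperty.Spec_iff (P := @LocallyOfFiniteType)).1 hft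
  haveI : Algebra.FinitePresentation k A := Algebra.FinitePresentation.of_finiteType.1 inferInstance
  haveI : Algebra.Smooth k A := { formallySmooth := inferInstance, finitePresentation := inferInstance }
  have hs : Smooth (Spec.map φ) := (HasRingHomProperty.Spec_iff (P := @Smooth)).2
    (RingHom.smooth_algebraMap.2 inferInstance)
  rw [hφ] at hs
  haveI := hs
  have h : R.D.P.affineCover.f i ≫ R.D.toBase =
      eqToHom hA ≫ eqToHom hA.symm ≫ R.D.P.affineCover.f i ≫ R.D.toBase := by simp
  rw [h]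
  infer_instance

end FLTAgent.PicScheme
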