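import Fermat.Agent.PicScheme.Bridge
import Fermat.Agent.PicScheme.Interface
import Fermat.Agent.AV.Curve.Domain

/-!
# The charts of an integral curve stay domains over every field
-/

set_option autoImplicit false
set_option linter.checkUnivs false
set_option linter.style.haveILetI false

noncomputable section

universe u

open CategoryTheory CategoryTheory.Limits AlgebraicGeometry NeronModelInfra TensorProduct

namespace FLTAgent.PicScheme

variable {k : Type u} [Field k]

theorem isDomain_tensor_field [IsAlgClosed k] (K B : Type u) [Field K] [Algebra k K] [CommRing B]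
    [IsDomain B] [Algebra k B] : IsDomain (K ⊗[k] B) := by
  haveI := AV.tensor_isDomain (K := k) K (FractionRing B)
  exact Function.Injective.isDomain
    (Algebra.TensorProduct.map (AlgHom.id k K) (IsScalarTower.toAlgHom k B (FractionRing B))).toRingHom
    (Module.Flat.lTensor_preserves_injective_linearMap
      (IsScalarTower.toAlgHom k B (FractionRing B)).toLinearMap
      (IsFractionRing.injective B (FractionRing B)))

theorem Charts.nontrivial (X : Charts k) : Nontrivial X.B₁ ∧ Nontrivial X.B₂ := by
  haveI h₁ : Nontrivial X.B₁ := X.pt.toRingHom.domain_nontrivial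
  refine ⟨h₁, ?_⟩
  by_contra h
  haveI := not_nontrivial_iff_subsingleton.1 h
  haveI : Subsingleton X.B₀ := by
    rw [subsingleton_iff_zero_eq_one.symm]
    rw [← map_zero X.ι₂, ← map_one X.ι₂]
    exact congrArg X.ι₂ (Subsingleton.elim _ _)
  have h2 : (0 : X.B₁) = 1 := by
    have hinj := X.res₁_injective k X.isFree
    refine (Algebra.TensorProduct.lid k X.B₁).symm.injective (hinj ?_)
    haveI : Subsingleton (X.R₀ k) := (Algebra.TensorProduct.lid k X.B₀).injective.subsingleton
    exact Subsingleton.elim _ _
  exact zero_ne_one h2

/-- A nonempty open affine piece of an integral scheme has a domain of functions. -/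
theorem isDomain_of_openImm {C : Scheme.{u}} [IsIntegral C] {B : Type u} [CommRing B]
    [Nontrivial B] (j : Spec (CommRingCat.of B) ⟶ C) [IsOpenImmersion j] : IsDomain B := by
  haveI : IsIntegral (Spec (CommRingCat.of B)) := isIntegral_of_isOpenImmersion j
  exact (affine_isIntegral_iff (CommRingCat.of B)).1 inferInstance

variable {C : Scheme.{u}} {c : C ⟶ Spec (CommRingCat.of k)}
  {ε : SchemeHomOver (𝟙 (Spec (CommRingCat.of k))) c}

theorem Frame.isDomain [IsIntegral C] (F : Frame c ε) : IsDomain F.X.B₁ ∧ IsDomain F.X.B₂ := by
  obtain ⟨h₁, h₂⟩ := F.X.nontrivial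
  haveI := F.open₁
  haveI := F.open₂
  exact ⟨isDomain_of_openImm F.j₁.1, isDomain_of_openImm F.j₂.1⟩

end FLTAgent.PicScheme
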