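import Fermat.Agent.PicScheme.Props.Valuation
import Fermat.Agent.PicScheme.Props.Domain

/-!
# A representing scheme is separated

The valuative criterion: classes which agree over the fraction field of a valuation ring agree
over the ring.
-/

set_option autoImplicit false
set_option linter.checkUnivs false
set_option linter.style.haveILetI false

noncomputable section

universe u

open CategoryTheory CategoryTheory.Limits AlgebraicGeometry AlgebraicGeometry.RelPicard
  NeronModelInfra GoodReductionJacobian

namespace FLTAgent.PicScheme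

variable {k : Type u} [Field k] [IsAlgClosed k] {C : Scheme.{u}}
  {c : C ⟶ Spec (CommRingCat.of k)} [IsIntegral C]
  {ε : SchemeHomOver (𝟙 (Spec (CommRingCat.of k))) c} {F : Frame c ε} {Δ : Dict F}

theorem Frame.isDomain_chart (F : Frame c ε) (K : Type u) [Field K] [Algebra k K] :
    IsDomain (F.X.R₁ K) ∧ IsDomain (F.X.R₂ K) := by
  obtain ⟨h₁, h₂⟩ := F.isDomain
  exact ⟨isDomain_tensor_field K F.X.B₁, isDomain_tensor_field K F.X.B₂⟩

theorem Dict.map_injective_fraction (Δ : Dict F) {V : Type u} [CommRing V] [IsDomain V]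
    [ValuationRing V] [Algebra k V] (K : Type u) [Field K] [Algebra k K] [Algebra V K]
    [IsScalarTower k V K] [IsFractionRing V K] :
    Function.Injective (Δ.map (IsScalarTower.toAlgHom k V K)) := by
  intro x y h
  obtain ⟨L, rfl⟩ := Quot.exists_rep x
  obtain ⟨L', rfl⟩ := Quot.exists_rep y
  obtain ⟨φ⟩ := Cls.mk_eq_iff.1
    ((Δ.map_mk _ L (L.2.map _)).symm.trans (h.trans (Δ.map_mk _ L' (L'.2.map _))))
  exact Cls.mk_eq_iff.2 (Datum.iso_of_iso_fraction (fun F' _ _ => F.isDomain_chart F') φ)

/-- The valuative criterion of uniqueness. -/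
theorem Rep.uniqueness (R : Rep Δ) : ValuativeCriterion.Uniqueness R.D.toBase := by
  intro S
  refine ⟨fun l₁ l₂ => ?_⟩
  obtain ⟨χ, hχ⟩ := Spec.map_surjective S.i₂
  letI : Algebra k S.R := χ.hom.toAlgebra
  letI : Algebra k S.K := ((algebraMap S.R S.K).comp (algebraMap k S.R)).toAlgebra
  haveI : IsScalarTower k S.R S.K := IsScalarTower.of_algebraMap_eq fun _ => rfl
  let p₁ : SchemeHomOver (specT k S.R) R.D.toBase := ⟨l₁.l, l₁.fac_right.trans hχ.symm⟩
  let p₂ : SchemeHomOver (specT k S.R) R.D.toBase := ⟨l₂.l, l₂.fac_right.trans hχ.symm⟩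
  have hp : postComp p₁ (specHom (IsScalarTower.toAlgHom k S.R S.K)) =
      postComp p₂ (specHom (IsScalarTower.toAlgHom k S.R S.K)) :=
    Subtype.ext (l₁.fac_left.trans l₂.fac_left.symm)
  have h := congrArg (R.η S.K) hp
  rw [R.η_map, R.η_map] at h
  exact CommSq.LiftStruct.ext (congrArg Subtype.val (R.η_injective S.R
    (Δ.map_injective_fraction S.K h)))

/-- A representing scheme which is locally of finite type is separated. -/
theorem Rep.isSeparated_valuative (R : Rep Δ) : IsSeparated R.D.toBase := by
  haveI := R.lft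
  haveI : IsLocallyNoetherian R.D.P := LocallyOfFiniteType.isLocallyNoetherian R.D.toBase
  haveI : QuasiSeparated R.D.toBase := inferInstance
  exact IsSeparated.of_valuativeCriterion _ R.uniqueness

end FLTAgent.PicScheme
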