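import Fermat.Agent.PicScheme.Props.Proper
import Fermat.Agent.PicScheme.Props.Smooth
import Fermat.Agent.PicScheme.Props.Valuative
import Fermat.Agent.PicScheme.Props.Geometric

/-!
# Properties of a representing scheme from a family meeting every class

If an irreducible proper scheme maps to a representing scheme and meets every class of degree zero
over the ground field, the scheme is smooth, proper, geometrically connected and integral.
-/

set_option autoImplicit false
set_option linter.checkUnivs false
set_option linter.style.haveILetI false

noncomputable section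

universe u

open CategoryTheory CategoryTheory.Limits AlgebraicGeometry AlgebraicGeometry.RelPicard
  NeronModelInfra GoodReductionJacobian

namespace FLTAgent.PicScheme

variable {k : Type u} [Field k] [IsAlgClosed k]

/-- A proper scheme reaching every rational point of a separated scheme of finite type surjects. -/
theorem surjective_of_points {Z P : Scheme.{u}} (f : Z ⟶ P) (x : P ⟶ Spec (CommRingCat.of k))
    [IsSeparated x] [LocallyOfFiniteType x] [IsProper (f ≫ x)]
    (h : ∀ s : Spec (CommRingCat.of k) ⟶ P, s ≫ x = 𝟙 _ →
      s (IsLocalRing.closedPoint k) ∈ Set.range f) : Surjective f := by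
  haveI : IsProper f := IsProper.of_comp f x
  haveI : JacobsonSpace P := LocallyOfFiniteType.jacobsonSpace x
  refine ⟨fun a => ?_⟩
  by_contra ha
  obtain ⟨b, hb, hbc⟩ := nonempty_inter_closedPoints (Z := (Set.range f)ᶜ) ⟨a, ha⟩
    f.isClosedMap.isClosed_range.isOpen_compl.isLocallyClosed
  refine hb ?_
  have h' := h (pointOfClosedPoint x b hbc) (pointOfClosedPoint_comp x b hbc)
  exact (pointOfClosedPoint_apply x b hbc (IsLocalRing.closedPoint k)) ▸ h'

variable {C : Scheme.{u}} {c : C ⟶ Spec (CommRingCat.of k)} [IsIntegral C]
  {ε : SchemeHomOver (𝟙 (Spec (CommRingCat.of k))) c} {F : Frame c ε} {Δ : Dict F}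

/-- The properties of a representing scheme from a proper irreducible family meeting every
class. -/
theorem Rep.props_of_cover (R : Rep Δ) {Z : Scheme.{u}} (z : Z ⟶ Spec (CommRingCat.of k))
    [IsProper z] [IrreducibleSpace Z] (f : SchemeHomOver z R.D.toBase)
    (hcov : ∀ x : Cls F.X k, x.IsZero →
      ∃ q : SchemeHomOver (specT k k) z, R.η k (postComp f q) = x) :
    Smooth R.D.toBase ∧ IsProper R.D.toBase ∧ GeometricallyConnected R.D.toBase ∧
      GeometricallyIntegral R.D.toBase := by
  haveI := R.lft
  haveI := R.smooth
  haveI := R.isSeparated_valuative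
  haveI : IsProper (f.1 ≫ R.D.toBase) := by rw [f.2]; infer_instance
  have hid : specT k k = 𝟙 (Spec (CommRingCat.of k)) := by
    rw [specT, Algebra.algebraMap_self, CommRingCat.ofHom_id, Spec.map_id]
  haveI : Surjective f.1 := surjective_of_points f.1 R.D.toBase fun s hs => by
    let p : SchemeHomOver (specT k k) R.D.toBase := ⟨s, hs.trans hid.symm⟩
    obtain ⟨q, hq⟩ := hcov _ (R.η_zero k p)
    have h := congrArg Subtype.val (R.η_injective k hq)
    exact ⟨q.1 (IsLocalRing.closedPoint k), congrArg (fun m => m (IsLocalRing.closedPoint k)) h⟩
  haveI : IrreducibleSpace R.D.P := f.1.surjective.irreducibleSpace f.1.continuous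
  exact ⟨inferInstance, isProper_of_surjective f.1 R.D.toBase,
    geometricallyConnected_of_isAlgClosed R.D.toBase, geometricallyIntegral_of_smooth R.D.toBase⟩

end FLTAgent.PicScheme
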