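import Fermat.Agent.PicScheme.Props.Section

/-!
# Maps between data on an integral curve

Two maps in opposite directions which vanish at no point are isomorphisms.
-/

set_option autoImplicit false
set_option linter.style.haveILetI false

noncomputable section

universe u

open TensorProduct Matrix

namespace FLTAgent.PicScheme

section RankOne

variable {R : Type*} [CommRing R] {n m : ℕ} {e : Matrix (Fin n) (Fin n) R}
  {e' : Matrix (Fin m) (Fin m) R}

/-- A rank one idempotent cuts every matrix down to a scalar. -/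
theorem IsRankOne.sandwich (he : IsRankOne e) (M : Matrix (Fin n) (Fin n) R) (h₁ : e * M = M)
    (h₂ : M * e = M) : M = M.trace • e := by
  have h : ∀ i j, (e * M * e) i j = (e * M).trace * e i j := fun i j => by
    simp only [Matrix.trace, Matrix.diag_apply, Matrix.mul_apply, Finset.sum_mul]
    rw [Finset.sum_comm]
    conv_rhs => rw [Finset.sum_comm]
    refine Finset.sum_congr rfl fun l _ => Finset.sum_congr rfl fun r _ => ?_
    calc e i l * M l r * e r j = (e i l * e r j) * M l r := by ring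
      _ = (e i j * e r l) * M l r := by rw [he.minors i l r j]
      _ = e r l * M l r * e i j := by ring
  refine Matrix.ext fun i j => ?_
  have := h i j
  rwa [h₁, h₂] at this

/-- The transpose of a rank one idempotent. -/
theorem IsRankOne.transposed (he : IsRankOne e) : IsRankOne e.transpose where
  idem := by rw [← Matrix.transpose_mul, he.idem]
  trace := by rw [Matrix.trace_transpose, he.trace]
  minors i j l m := by
    simp only [Matrix.transpose_apply]
    rw [he.minors j i m l, mul_comm]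

/-- Products of entries of maps in opposite directions. -/
theorem IsRankOne.mul_entries (he : IsRankOne e) (a : Matrix (Fin m) (Fin n) R)
    (b : Matrix (Fin n) (Fin m) R) (ha : a * e = a) (hb : e * b = b) (i : Fin m) (j p : Fin n)
    (q : Fin m) : a i j * b p q = e p j * (a * b) i q := by
  have hrow : e.transpose *ᵥ a i = a i := funext fun l => by
    conv_rhs => rw [← ha]
    simp only [Matrix.mulVec, dotProduct, Matrix.transpose_apply, Matrix.mul_apply, mul_comm]
  conv_lhs => rw [← hb]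
  rw [Matrix.mul_apply, Matrix.mul_apply, Finset.mul_sum, Finset.mul_sum]
  refine Finset.sum_congr rfl fun r _ => ?_
  have := (IsRankOne.transposed he).mul_fixed hrow r p j
  simp only [Matrix.transpose_apply] at this
  calc a i j * (e p r * b r q) = (e p r * a i j) * b r q := by ring
    _ = (a i r * e p j) * b r q := by rw [this]
    _ = e p j * (a i r * b r q) := by ring

end RankOne

variable {k : Type u} [Field k] {X : Charts k} {A : Type u} [CommRing A] [Algebra k A]

namespace Datum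

/-- A map of data. -/
structure Hom (L L' : Datum X A) where
  a₁ : Matrix (Fin L'.n₁) (Fin L.n₁) (X.R₁ A)
  a₂ : Matrix (Fin L'.n₂) (Fin L.n₂) (X.R₂ A)
  left₁ : L'.e₁ * a₁ = a₁
  right₁ : a₁ * L.e₁ = a₁
  left₂ : L'.e₂ * a₂ = a₂
  right₂ : a₂ * L.e₂ = a₂
  compat : L'.u * a₁.map (X.res₁ A) = a₂.map (X.res₂ A) * L.u

/-- The map underlying an isomorphism. -/
def Iso.toHom {L L' : Datum X A} (φ : Iso L L') : Hom L L' where
  a₁ := φ.a₁ * L.e₁
  a₂ := φ.a₂ * L.e₂
  left₁ := by rw [← Matrix.mul_assoc, φ.cut₁]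
  right₁ := by rw [Matrix.mul_assoc, L.rank₁.idem]
  left₂ := by rw [← Matrix.mul_assoc, φ.cut₂]
  right₂ := by rw [Matrix.mul_assoc, L.rank₂.idem]
  compat := by
    rw [Matrix.map_mul, Matrix.map_mul, ← Matrix.mul_assoc, φ.compat,
      Matrix.mul_assoc (φ.a₂.map (X.res₂ A)), L.e₂_u]

variable {L L' : Datum X A}

/-- Base change of a map. -/
def Hom.map {A' : Type u} [CommRing A'] [Algebra k A'] (h : Hom L L') (f : A →ₐ[k] A') :
    Hom (L.map f) (L'.map f) where
  a₁ := h.a₁.map (chartMap X.B₁ f)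
  a₂ := h.a₂.map (chartMap X.B₂ f)
  left₁ := (Matrix.map_mul (f := chartMap X.B₁ f)).symm.trans
    (congrArg (fun M => M.map (chartMap X.B₁ f)) h.left₁)
  right₁ := (Matrix.map_mul (f := chartMap X.B₁ f)).symm.trans
    (congrArg (fun M => M.map (chartMap X.B₁ f)) h.right₁)
  left₂ := (Matrix.map_mul (f := chartMap X.B₂ f)).symm.trans
    (congrArg (fun M => M.map (chartMap X.B₂ f)) h.left₂)
  right₂ := (Matrix.map_mul (f := chartMap X.B₂ f)).symm.trans
    (congrArg (fun M => M.map (chartMap X.B₂ f)) h.right₂)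
  compat := by
    have e₁ : (h.a₁.map (chartMap X.B₁ f)).map (X.res₁ A') =
        (h.a₁.map (X.res₁ A)).map (chartMap X.B₀ f) :=
      Matrix.ext fun i j => (chartMap_res₁ f _).symm
    have e₂ : (h.a₂.map (chartMap X.B₂ f)).map (X.res₂ A') =
        (h.a₂.map (X.res₂ A)).map (chartMap X.B₀ f) :=
      Matrix.ext fun i j => (chartMap_res₂ f _).symm
    exact (congrArg (fun M => L'.u.map (chartMap X.B₀ f) * M) e₁).trans
      ((((Matrix.map_mul (f := chartMap X.B₀ f)).symm.trans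
        (congrArg (fun M => M.map (chartMap X.B₀ f)) h.compat)).trans
        (Matrix.map_mul (f := chartMap X.B₀ f))).trans
        (congrArg (fun M => M * L.u.map (chartMap X.B₀ f)) e₂.symm))

/-- The composite of maps in opposite directions as a section of the trivial datum. -/
theorem Hom.trace_mem (a : Hom L L') (b : Hom L' L) :
    X.res₁ A (b.a₁ * a.a₁).trace = X.res₂ A (b.a₂ * a.a₂).trace := by
  set τ₁ := (b.a₁ * a.a₁).trace with hτ₁
  set τ₂ := (b.a₂ * a.a₂).trace with hτ₂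
  have s₁ : b.a₁ * a.a₁ = τ₁ • L.e₁ := L.rank₁.sandwich _
    (by rw [← Matrix.mul_assoc, b.left₁]) (by rw [Matrix.mul_assoc, a.right₁])
  have s₂ : b.a₂ * a.a₂ = τ₂ • L.e₂ := L.rank₂.sandwich _
    (by rw [← Matrix.mul_assoc, b.left₂]) (by rw [Matrix.mul_assoc, a.right₂])
  have h : L.u * (b.a₁ * a.a₁).map (X.res₁ A) = (b.a₂ * a.a₂).map (X.res₂ A) * L.u := by
    rw [Matrix.map_mul, Matrix.map_mul, ← Matrix.mul_assoc, b.compat, Matrix.mul_assoc, a.compat,
      ← Matrix.mul_assoc]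
  have e₁ : (τ₁ • L.e₁).map (X.res₁ A) = X.res₁ A τ₁ • L.e₁.map (X.res₁ A) :=
    Matrix.ext fun i j => map_mul (X.res₁ A) _ _
  have e₂ : (τ₂ • L.e₂).map (X.res₂ A) = X.res₂ A τ₂ • L.e₂.map (X.res₂ A) :=
    Matrix.ext fun i j => map_mul (X.res₂ A) _ _
  rw [s₁, s₂, e₁, e₂, Matrix.mul_smul, L.u_cut, Matrix.smul_mul, L.e₂_u] at h
  have h2 := congrArg (fun M => (M * L.v).trace) h
  simp only [Matrix.smul_mul, L.uv, Matrix.trace_smul] at h2
  have ht : (L.e₂.map (X.res₂ A)).trace = 1 := (IsRankOne.map (X.res₂ A).toRingHom L.rank₂).trace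
  rwa [ht, smul_eq_mul, smul_eq_mul, mul_one, mul_one] at h2

/-- Maps in opposite directions with invertible composite give an isomorphism. -/
theorem Hom.iso_of_isUnit (a : Hom L L') (b : Hom L' L) (h₁ : IsUnit (b.a₁ * a.a₁).trace)
    (h₂ : IsUnit (b.a₂ * a.a₂).trace) : Nonempty (Iso L L') := by
  obtain ⟨c₁, hc₁⟩ := h₁.exists_left_inv
  obtain ⟨c₂, hc₂⟩ := h₂.exists_left_inv
  have s₁ : b.a₁ * a.a₁ = (b.a₁ * a.a₁).trace • L.e₁ := L.rank₁.sandwich _
    (by rw [← Matrix.mul_assoc, b.left₁]) (by rw [Matrix.mul_assoc, a.right₁])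
  have t₁ : a.a₁ * b.a₁ = (a.a₁ * b.a₁).trace • L'.e₁ := L'.rank₁.sandwich _
    (by rw [← Matrix.mul_assoc, a.left₁]) (by rw [Matrix.mul_assoc, b.right₁])
  have s₂ : b.a₂ * a.a₂ = (b.a₂ * a.a₂).trace • L.e₂ := L.rank₂.sandwich _
    (by rw [← Matrix.mul_assoc, b.left₂]) (by rw [Matrix.mul_assoc, a.right₂])
  have t₂ : a.a₂ * b.a₂ = (a.a₂ * b.a₂).trace • L'.e₂ := L'.rank₂.sandwich _
    (by rw [← Matrix.mul_assoc, a.left₂]) (by rw [Matrix.mul_assoc, b.right₂])
  exact ⟨{
    a₁ := a.a₁, b₁ := c₁ • b.a₁, a₂ := a.a₂, b₂ := c₂ • b.a₂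
    ab₁ := by rw [Matrix.mul_smul, t₁, Matrix.trace_mul_comm, smul_smul, hc₁, one_smul]
    ba₁ := by rw [Matrix.smul_mul, s₁, smul_smul, hc₁, one_smul]
    ab₂ := by rw [Matrix.mul_smul, t₂, Matrix.trace_mul_comm, smul_smul, hc₂, one_smul]
    ba₂ := by rw [Matrix.smul_mul, s₂, smul_smul, hc₂, one_smul]
    compat := by
      rw [Matrix.mul_assoc, ← Matrix.map_mul, a.right₁]
      exact a.compat }⟩

/-- Over a field a map is zero on both charts or on none. -/
theorem Hom.a₂_eq_zero (a : Hom L L') (h : a.a₁ = 0) : a.a₂ = 0 := by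
  have h1 := congrArg (· * L.v) a.compat
  simp only [h, Matrix.map_zero _ (map_zero (X.res₁ A)), Matrix.mul_zero, Matrix.zero_mul,
    Matrix.mul_assoc, L.uv, ← Matrix.map_mul, a.right₂] at h1
  exact Matrix.ext fun i j => X.res₂_injective A X.isFree (by
    rw [Matrix.zero_apply, map_zero]; exact (congrFun (congrFun h1 i) j).symm)

theorem Hom.a₁_eq_zero (a : Hom L L') (h : a.a₂ = 0) : a.a₁ = 0 := by
  have h1 := congrArg (L'.v * ·) a.compat
  simp only [h, Matrix.map_zero _ (map_zero (X.res₂ A)), Matrix.mul_zero, Matrix.zero_mul,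
    ← Matrix.mul_assoc, L'.vu, ← Matrix.map_mul, a.left₁] at h1
  exact Matrix.ext fun i j => X.res₁_injective A X.isFree (by
    rw [Matrix.zero_apply, map_zero]; exact congrFun (congrFun h1 i) j)

/-- Nonzero maps in opposite directions compose to a nonzero scalar. -/
theorem Hom.trace_ne_zero [IsDomain (X.R₁ A)] (a : Hom L L') (b : Hom L' L)
    (ha : a.a₁ ≠ 0) (hb : b.a₁ ≠ 0) : (b.a₁ * a.a₁).trace ≠ 0 := by
  intro h
  have t₁ : a.a₁ * b.a₁ = (a.a₁ * b.a₁).trace • L'.e₁ := L'.rank₁.sandwich _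
    (by rw [← Matrix.mul_assoc, a.left₁]) (by rw [Matrix.mul_assoc, b.right₁])
  rw [Matrix.trace_mul_comm, h, zero_smul] at t₁
  obtain ⟨i, j, hij⟩ : ∃ i j, a.a₁ i j ≠ 0 := by
    by_contra! h'
    exact ha (Matrix.ext h')
  obtain ⟨p, q, hpq⟩ : ∃ p q, b.a₁ p q ≠ 0 := by
    by_contra! h'
    exact hb (Matrix.ext h')
  refine mul_ne_zero hij hpq ?_
  rw [L.rank₁.mul_entries a.a₁ b.a₁ a.right₁ b.left₁ i j p q, t₁, Matrix.zero_apply, mul_zero]

/-- Maps in opposite directions which are nonzero at every point are isomorphisms. -/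
theorem Hom.iso_of_points (a : Hom L L') (b : Hom L' L)
    (hdom : ∀ (K : Type u) [Field K] [Algebra k K], IsDomain (X.R₁ K) ∧ IsDomain (X.R₂ K))
    (ha : ∀ (K : Type u) [Field K] [IsAlgClosed K] [Algebra k K] (φ : A →ₐ[k] K),
      (a.map φ).a₁ ≠ 0 ∧ (b.map φ).a₁ ≠ 0) : Nonempty (Iso L L') := by
  have key : ∀ (K : Type u) [Field K] [IsAlgClosed K] [Algebra k K] (φ : A →ₐ[k] K),
      (∃ c : Fin 1 → X.R₁ K, c ⬝ᵥ (chartMap X.B₁ φ ∘ fun _ : Fin 1 => (b.a₁ * a.a₁).trace) = 1) ∧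
      ∃ c : Fin 1 → X.R₂ K, c ⬝ᵥ (chartMap X.B₂ φ ∘ fun _ : Fin 1 => (b.a₂ * a.a₂).trace) = 1 := by
    intro K _ _ _ φ
    obtain ⟨h1, h2⟩ := hdom K
    have e₁ : chartMap X.B₁ φ (b.a₁ * a.a₁).trace = ((b.map φ).a₁ * (a.map φ).a₁).trace :=
      (AddMonoidHom.map_trace (chartMap X.B₁ φ).toRingHom.toAddMonoidHom _).trans
        (congrArg Matrix.trace (Matrix.map_mul (f := chartMap X.B₁ φ)))
    have e₂ : chartMap X.B₂ φ (b.a₂ * a.a₂).trace = ((b.map φ).a₂ * (a.map φ).a₂).trace :=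
      (AddMonoidHom.map_trace (chartMap X.B₂ φ).toRingHom.toAddMonoidHom _).trans
        (congrArg Matrix.trace (Matrix.map_mul (f := chartMap X.B₂ φ)))
    refine (Datum.one X K).unimodular_of_chi rfl
      (s := (fun _ => chartMap X.B₁ φ (b.a₁ * a.a₁).trace,
        fun _ => chartMap X.B₂ φ (b.a₂ * a.a₂).trace)) ⟨?_, ?_, ?_⟩ ?_
    · exact Matrix.one_mulVec (m := Fin 1) _
    · exact Matrix.one_mulVec (m := Fin 1) _
    · refine (Matrix.one_mulVec (m := Fin 1) (α := X.R₀ K) _).trans (funext fun _ => ?_)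
      show X.res₁ K (chartMap X.B₁ φ _) = X.res₂ K (chartMap X.B₂ φ _)
      rw [e₁, e₂]
      exact (a.map φ).trace_mem (b.map φ)
    · intro h
      have h0 : chartMap X.B₁ φ (b.a₁ * a.a₁).trace = 0 :=
        congrFun (congrArg Prod.fst h) ⟨0, Nat.one_pos⟩
      rw [e₁] at h0
      exact (a.map φ).trace_ne_zero (b.map φ) (ha K φ).1 (ha K φ).2 h0
  obtain ⟨c₁, hc₁⟩ := exists_dual_of_points (fun _ : Fin 1 => (b.a₁ * a.a₁).trace)
    fun K _ _ _ φ => (key K φ).1
  obtain ⟨c₂, hc₂⟩ := exists_dual_of_points (fun _ : Fin 1 => (b.a₂ * a.a₂).trace)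
    fun K _ _ _ φ => (key K φ).2
  rw [dotProduct, Fin.sum_univ_one] at hc₁ hc₂
  exact a.iso_of_isUnit b (IsUnit.of_mul_eq_one_right _ hc₁) (IsUnit.of_mul_eq_one_right _ hc₂)

end Datum

end FLTAgent.PicScheme
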