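import Fermat.Agent.PicScheme.Basic

/-!
# Unimodular sections of data

A global section whose coordinates generate the unit ideal on both charts trivialises the datum.
Unimodularity may be tested at points in algebraically closed fields.
-/

set_option autoImplicit false
set_option linter.style.haveILetI false

noncomputable section

universe u

open TensorProduct Matrix

namespace FLTAgent.PicScheme

section RankOne

variable {R : Type*} [CommRing R] {n : ℕ} {e : Matrix (Fin n) (Fin n) R} (h : IsRankOne e)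
  {s : Fin n → R} (hs : e *ᵥ s = s)

include h hs

theorem IsRankOne.mul_fixed (i j l : Fin n) : e i j * s l = s i * e l j := by
  conv_lhs => rw [← hs]
  conv_rhs => rw [← hs]
  simp only [Matrix.mulVec, dotProduct, Finset.mul_sum, Finset.sum_mul]
  refine Finset.sum_congr rfl fun m _ => ?_
  rw [← mul_assoc, h.minors i j l m]
  ring

theorem IsRankOne.fixed_comm {x : Fin n → R} (hx : e *ᵥ x = x) (i l : Fin n) :
    s i * x l = s l * x i := by
  conv_lhs => rw [← hx]
  conv_rhs => rw [← hx]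
  simp only [Matrix.mulVec, dotProduct, Finset.mul_sum]
  refine Finset.sum_congr rfl fun j _ => ?_
  rw [← mul_assoc, ← h.mul_fixed hs i j l]
  ring

theorem IsRankOne.eq_vecMulVec {b : Fin n → R} (hb : b ⬝ᵥ s = 1) :
    e = Matrix.vecMulVec s (b ᵥ* e) := by
  ext i j
  rw [Matrix.vecMulVec_apply, Matrix.vecMul, dotProduct, Finset.mul_sum]
  calc e i j = e i j * (b ⬝ᵥ s) := by rw [hb, mul_one]
    _ = _ := by
      rw [dotProduct, Finset.mul_sum]
      refine Finset.sum_congr rfl fun l _ => ?_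
      rw [mul_left_comm, h.mul_fixed hs i j l]
      ring

end RankOne

variable {k : Type u} [Field k] {X : Charts k} {A : Type u} [CommRing A] [Algebra k A]

/-- A unimodular section trivialises a datum. -/
theorem Datum.iso_one_of_unimodular (L : Datum X A)
    (s : (Fin L.n₁ → X.R₁ A) × (Fin L.n₂ → X.R₂ A)) (hs : s ∈ L.H0)
    (h₁ : ∃ b, b ⬝ᵥ s.1 = 1) (h₂ : ∃ b, b ⬝ᵥ s.2 = 1) :
    Nonempty (Datum.Iso (Datum.one X A) L) := by
  obtain ⟨b₁, hb₁⟩ := h₁
  obtain ⟨b₂, hb₂⟩ := h₂
  obtain ⟨he₁, he₂, hu⟩ := hs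
  have e₁ := L.rank₁.eq_vecMulVec he₁ hb₁
  have e₂ := L.rank₂.eq_vecMulVec he₂ hb₂
  refine ⟨{
    a₁ := Matrix.replicateCol (Fin 1) s.1
    b₁ := Matrix.replicateRow (Fin 1) (b₁ ᵥ* L.e₁)
    a₂ := Matrix.replicateCol (Fin 1) s.2
    b₂ := Matrix.replicateRow (Fin 1) (b₂ ᵥ* L.e₂)
    ab₁ := ?_, ba₁ := ?_, ab₂ := ?_, ba₂ := ?_, compat := ?_ }⟩
  · exact (Matrix.vecMulVec_eq (Fin 1) _ _).symm.trans e₁.symm
  · refine Matrix.ext fun i j => ?_
    show (b₁ ᵥ* L.e₁) ⬝ᵥ s.1 = (1 : Matrix (Fin 1) (Fin 1) _) i j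
    have : Subsingleton (Fin (Datum.one X A).n₁) := inferInstanceAs (Subsingleton (Fin 1))
    rw [← Matrix.dotProduct_mulVec, he₁, hb₁, Subsingleton.elim i j]
    exact (Matrix.one_apply_eq (α := X.R₁ A) j).symm
  · exact (Matrix.vecMulVec_eq (Fin 1) _ _).symm.trans e₂.symm
  · refine Matrix.ext fun i j => ?_
    show (b₂ ᵥ* L.e₂) ⬝ᵥ s.2 = (1 : Matrix (Fin 1) (Fin 1) _) i j
    have : Subsingleton (Fin (Datum.one X A).n₂) := inferInstanceAs (Subsingleton (Fin 1))
    rw [← Matrix.dotProduct_mulVec, he₂, hb₂, Subsingleton.elim i j]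
    exact (Matrix.one_apply_eq (α := X.R₂ A) j).symm
  · have key : L.u * (Matrix.replicateCol (Fin 1) s.1).map (X.res₁ A) *
        (1 : Matrix (Fin 1) (Fin 1) (X.R₁ A)).map (X.res₁ A) =
        (Matrix.replicateCol (Fin 1) s.2).map (X.res₂ A) * (1 : Matrix (Fin 1) (Fin 1) (X.R₀ A)) := by
      rw [Matrix.map_one _ (map_zero _) (map_one _), Matrix.mul_one, Matrix.mul_one]
      exact Matrix.ext fun i j => congrFun hu i
    exact key

/-- Unimodularity is tested at points in algebraically closed fields. -/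
theorem exists_dual_of_points {B : Type u} [CommRing B] [Algebra k B] {n : ℕ} (s : Fin n → A ⊗[k] B)
    (h : ∀ (K : Type u) [Field K] [IsAlgClosed K] [Algebra k K] (φ : A →ₐ[k] K),
      ∃ b : Fin n → K ⊗[k] B, b ⬝ᵥ (Datum.chartMap B φ ∘ s) = 1) :
    ∃ b, b ⬝ᵥ s = 1 := by
  suffices h' : Ideal.span (Set.range s) = ⊤ from
    Ideal.mem_span_range_iff_exists_fun.1 ((Ideal.eq_top_iff_one _).1 h')
  by_contra hne
  obtain ⟨m, hm, hle⟩ := Ideal.exists_le_maximal _ hne
  letI : Field ((A ⊗[k] B) ⧸ m) := Ideal.Quotient.field m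
  let K := AlgebraicClosure ((A ⊗[k] B) ⧸ m)
  let ω : A ⊗[k] B →ₐ[k] K :=
    (IsScalarTower.toAlgHom k ((A ⊗[k] B) ⧸ m) K).comp (Ideal.Quotient.mkₐ k m)
  obtain ⟨b, hb⟩ := h K (ω.comp Algebra.TensorProduct.includeLeft)
  let ω' : K ⊗[k] B →ₐ[k] K := Algebra.TensorProduct.lift (AlgHom.id k K)
    (ω.comp Algebra.TensorProduct.includeRight) (fun _ _ => Commute.all _ _)
  have hω : ∀ x, ω' (Datum.chartMap B (ω.comp Algebra.TensorProduct.includeLeft) x) = ω x := by
    intro x
    induction x using TensorProduct.induction_on with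
    | zero => simp
    | tmul a c =>
      simp only [ω', Datum.chartMap, Algebra.TensorProduct.map_tmul, Algebra.TensorProduct.lift_tmul,
        AlgHom.id_apply, AlgHom.comp_apply, Algebra.TensorProduct.includeLeft_apply,
        Algebra.TensorProduct.includeRight_apply, ← map_mul, Algebra.TensorProduct.tmul_mul_tmul,
        mul_one, one_mul]
    | add a c ha hc => simp [ha, hc]
  have h1 := congrArg ω' hb
  rw [map_one, dotProduct, map_sum, Finset.sum_eq_zero] at h1
  · exact zero_ne_one h1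
  · intro i _
    rw [map_mul, Function.comp_apply, hω, show ω (s i) = 0 from ?_, mul_zero]
    show algebraMap _ K (Ideal.Quotient.mk m (s i)) = 0
    rw [Ideal.Quotient.eq_zero_iff_mem.2 (hle (Ideal.subset_span ⟨i, rfl⟩)), map_zero]

end FLTAgent.PicScheme
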