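import Fermat.Agent.PicScheme.Props.Hom

/-!
# Isomorphisms of data extend over valuation rings
-/

set_option autoImplicit false
set_option linter.style.haveILetI false

noncomputable section

universe u

open TensorProduct Matrix

namespace FLTAgent.PicScheme

variable {k : Type u} [Field k] {X : Charts k}

section Coefficients

variable {V : Type u} [CommRing V] [Algebra k V] {B : Type u} [CommRing B] [Algebra k B]

/-- A coefficient of an element of a chart. -/
def coef (A : Type u) [CommRing A] [Algebra k A]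
    (l : Module.Free.ChooseBasisIndex k B) : A ⊗[k] B →ₗ[A] A :=
  (Algebra.TensorProduct.basis A (Module.Free.chooseBasis k B)).coord l

theorem coef_chartMap {A : Type u} [CommRing A] [Algebra k A] (φ : V →ₐ[k] A)
    (l : Module.Free.ChooseBasisIndex k B) (x : V ⊗[k] B) :
    coef A l (Datum.chartMap B φ x) = φ (coef V l x) := by
  induction x using TensorProduct.induction_on with
  | zero => simp
  | tmul a b =>
    simp [coef, Datum.chartMap, Algebra.TensorProduct.basis_repr_tmul]
  | add a b ha hb => simp [ha, hb]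

variable [IsDomain V] {K : Type u} [Field K] [Algebra k K] [Algebra V K] [IsScalarTower k V K]
  [IsFractionRing V K]

theorem exists_clear (y : K ⊗[k] B) : ∃ (d : V) (_ : d ≠ 0) (x : V ⊗[k] B),
    Datum.chartMap B (IsScalarTower.toAlgHom k V K) x = algebraMap V K d • y := by
  induction y using TensorProduct.induction_on with
  | zero => exact ⟨1, one_ne_zero, 0, by simp⟩
  | tmul a b =>
    obtain ⟨⟨x, ⟨d, hd⟩⟩, h⟩ := IsLocalization.surj (nonZeroDivisors V) a
    refine ⟨d, nonZeroDivisors.ne_zero hd, x ⊗ₜ b, ?_⟩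
    rw [TensorProduct.smul_tmul', smul_eq_mul, mul_comm]
    simp [Datum.chartMap, ← h]
  | add y z hy hz =>
    obtain ⟨d, hd, x, hx⟩ := hy
    obtain ⟨d', hd', x', hx'⟩ := hz
    refine ⟨d * d', mul_ne_zero hd hd', d' • x + d • x', ?_⟩
    have hs : ∀ (c : V) (w : V ⊗[k] B), Datum.chartMap B (IsScalarTower.toAlgHom k V K) (c • w) =
        algebraMap V K c • Datum.chartMap B (IsScalarTower.toAlgHom k V K) w := fun c w => by
      induction w using TensorProduct.induction_on with
      | zero => simp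
      | tmul p q => simp [Datum.chartMap, Algebra.smul_def]
      | add p q hp hq => simp [hp, hq, smul_add]
    rw [map_add, hs, hs, hx, hx', smul_smul, smul_smul, map_mul, smul_add,
      mul_comm (algebraMap V K d') (algebraMap V K d)]

theorem exists_clear_matrix {n m : ℕ} (y : Matrix (Fin n) (Fin m) (K ⊗[k] B)) :
    ∃ d : V, d ≠ 0 ∧ ∀ e : V, d ∣ e → ∃ x : Matrix (Fin n) (Fin m) (V ⊗[k] B),
      x.map (Datum.chartMap B (IsScalarTower.toAlgHom k V K)) = algebraMap V K e • y := by
  choose d hd x hx using fun p : Fin n × Fin m => exists_clear (V := V) (y p.1 p.2)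
  refine ⟨∏ p, d p, Finset.prod_ne_zero_iff.2 fun p _ => hd p, fun e he => ?_⟩
  have hdvd : ∀ p, ∃ r, e = r * d p := fun p => by
    obtain ⟨r, hr⟩ := (Finset.dvd_prod_of_mem d (Finset.mem_univ p)).trans he
    exact ⟨r, hr.trans (mul_comm _ _)⟩
  choose r hr using hdvd
  refine ⟨Matrix.of fun i j => (r (i, j) ⊗ₜ[k] (1 : B)) * x (i, j), Matrix.ext fun i j => ?_⟩
  rw [Matrix.map_apply, Matrix.of_apply, map_mul, hx, Matrix.smul_apply, hr (i, j), map_mul]
  show algebraMap V K (r (i, j)) ⊗ₜ[k] (1 : B) * (algebraMap V K (d (i, j)) • y i j) = _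
  rw [mul_smul_comm, show algebraMap V K (r (i, j)) ⊗ₜ[k] (1 : B) * y i j =
    algebraMap V K (r (i, j)) • y i j by rw [Algebra.smul_def]; rfl, smul_smul, mul_comm]

theorem exists_dvd_all [ValuationRing V] (S : Finset V) (hS : ∃ c ∈ S, c ≠ 0) :
    ∃ c ∈ S, c ≠ 0 ∧ ∀ x ∈ S, c ∣ x := by
  classical
  induction S using Finset.induction_on with
  | empty => simp at hS
  | insert a S _ ih =>
    by_cases h : ∃ c ∈ S, c ≠ 0
    · obtain ⟨c, hc, hc0, hdvd⟩ := ih h
      rcases (eq_or_ne a 0) with ha | ha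
      · exact ⟨c, Finset.mem_insert_of_mem hc, hc0, fun x hx => by
          rcases Finset.mem_insert.1 hx with rfl | hx
          · rw [ha]; exact dvd_zero c
          · exact hdvd x hx⟩
      rcases ValuationRing.dvd_total c a with hca | hac
      · exact ⟨c, Finset.mem_insert_of_mem hc, hc0, fun x hx => by
          rcases Finset.mem_insert.1 hx with rfl | hx
          · exact hca
          · exact hdvd x hx⟩
      · exact ⟨a, Finset.mem_insert_self a S, ha, fun x hx => by
          rcases Finset.mem_insert.1 hx with rfl | hx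
          · exact dvd_rfl
          · exact hac.trans (hdvd x hx)⟩
    · push Not at h
      obtain ⟨c, hc, hc0⟩ := hS
      rcases Finset.mem_insert.1 hc with rfl | hc'
      · exact ⟨c, Finset.mem_insert_self c S, hc0, fun x hx => by
          rcases Finset.mem_insert.1 hx with rfl | hx
          · exact dvd_rfl
          · rw [h x hx]; exact dvd_zero c⟩
      · exact absurd (h c hc') hc0

omit [IsDomain V] in
theorem exists_eq_smul {c : V} (x : V ⊗[k] B) (h : ∀ l, c ∣ coef V l x) :
    ∃ x', x = c • x' := by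
  choose q hq using h
  let β := Algebra.TensorProduct.basis V (Module.Free.chooseBasis k B)
  refine ⟨∑ l ∈ (β.repr x).support, q l • β l, ?_⟩
  conv_lhs => rw [← β.linearCombination_repr x, Finsupp.linearCombination_apply, Finsupp.sum]
  rw [Finset.smul_sum]
  exact Finset.sum_congr rfl fun l _ => (congrArg (· • β l) (hq l)).trans (mul_smul c (q l) _)

end Coefficients

variable {V : Type u} [CommRing V] [IsDomain V] [ValuationRing V] [Algebra k V]
  {K : Type u} [Field K] [Algebra k K] [Algebra V K] [IsScalarTower k V K] [IsFractionRing V K]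

omit [IsDomain V] [ValuationRing V] in
theorem chartMap_injective (B : Type u) [CommRing B] [Algebra k B] :
    Function.Injective (Datum.chartMap B (IsScalarTower.toAlgHom k V K)) :=
  Module.Flat.rTensor_preserves_injective_linearMap
    (IsScalarTower.toAlgHom k V K).toLinearMap (IsFractionRing.injective V K)

omit [IsDomain V] [ValuationRing V] in
theorem map_inj_matrix {B : Type u} [CommRing B] [Algebra k B] {n m : ℕ}
    {x y : Matrix (Fin n) (Fin m) (V ⊗[k] B)}
    (h : x.map (Datum.chartMap B (IsScalarTower.toAlgHom k V K)) =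
      y.map (Datum.chartMap B (IsScalarTower.toAlgHom k V K))) : x = y :=
  Matrix.ext fun i j => chartMap_injective B (congrFun (congrFun h i) j)

/-- A nonzero map over the fraction field gives a map nonzero at every point. -/
theorem Datum.exists_hom_ne_zero {L L' : Datum X V}
    (a : Hom (L.map (IsScalarTower.toAlgHom k V K)) (L'.map (IsScalarTower.toAlgHom k V K)))
    (h0 : a.a₁ ≠ 0) :
    ∃ a' : Hom L L', ∀ (F : Type u) [Field F] [Algebra k F] (φ : V →ₐ[k] F),
      (a'.map φ).a₁ ≠ 0 := by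
  classical
  let ι := IsScalarTower.toAlgHom k V K
  obtain ⟨A₁, hA₁⟩ : ∃ M : Matrix (Fin L'.n₁) (Fin L.n₁) (X.R₁ K), M = a.a₁ := ⟨a.a₁, rfl⟩
  obtain ⟨A₂, hA₂⟩ : ∃ M : Matrix (Fin L'.n₂) (Fin L.n₂) (X.R₂ K), M = a.a₂ := ⟨a.a₂, rfl⟩
  have hl₁ : L'.e₁.map (chartMap X.B₁ ι) * A₁ = A₁ := hA₁ ▸ a.left₁
  have hr₁ : A₁ * L.e₁.map (chartMap X.B₁ ι) = A₁ := hA₁ ▸ a.right₁
  have hl₂ : L'.e₂.map (chartMap X.B₂ ι) * A₂ = A₂ := hA₂ ▸ a.left₂
  have hr₂ : A₂ * L.e₂.map (chartMap X.B₂ ι) = A₂ := hA₂ ▸ a.right₂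
  have hco : L'.u.map (chartMap X.B₀ ι) * A₁.map (X.res₁ K) =
      A₂.map (X.res₂ K) * L.u.map (chartMap X.B₀ ι) := hA₁ ▸ hA₂ ▸ a.compat
  replace h0 : A₁ ≠ 0 := fun h => h0 (hA₁.symm.trans h)
  obtain ⟨d₁, hd₁, hc₁⟩ := exists_clear_matrix (V := V) A₁
  obtain ⟨d₂, hd₂, hc₂⟩ := exists_clear_matrix (V := V) A₂
  set d := d₁ * d₂
  obtain ⟨x₁, hx₁⟩ := hc₁ d (dvd_mul_right _ _)
  obtain ⟨x₂, hx₂⟩ := hc₂ d (dvd_mul_left _ _)
  let β₁ := Algebra.TensorProduct.basis V (Module.Free.chooseBasis k X.B₁)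
  let β₂ := Algebra.TensorProduct.basis V (Module.Free.chooseBasis k X.B₂)
  set S : Finset V :=
    (Finset.univ.biUnion fun p : Fin L'.n₁ × Fin L.n₁ =>
      (β₁.repr (x₁ p.1 p.2)).support.image fun l => coef V l (x₁ p.1 p.2)) ∪
    (Finset.univ.biUnion fun p : Fin L'.n₂ × Fin L.n₂ =>
      (β₂.repr (x₂ p.1 p.2)).support.image fun l => coef V l (x₂ p.1 p.2))
  have hS₁ : ∀ i j l, coef V l (x₁ i j) ≠ 0 → coef V l (x₁ i j) ∈ S := fun i j l h =>
    Finset.mem_union_left _ (Finset.mem_biUnion.2 ⟨(i, j), Finset.mem_univ _,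
      Finset.mem_image.2 ⟨l, Finsupp.mem_support_iff.2 h, rfl⟩⟩)
  have hS₂ : ∀ i j l, coef V l (x₂ i j) ≠ 0 → coef V l (x₂ i j) ∈ S := fun i j l h =>
    Finset.mem_union_right _ (Finset.mem_biUnion.2 ⟨(i, j), Finset.mem_univ _,
      Finset.mem_image.2 ⟨l, Finsupp.mem_support_iff.2 h, rfl⟩⟩)
  have hne : ∃ c ∈ S, c ≠ 0 := by
    by_contra hall
    push Not at hall
    refine h0 (Matrix.ext fun i j => ?_)
    have hz : x₁ i j = 0 := β₁.repr.map_eq_zero_iff.1 (Finsupp.ext fun l => by
      by_contra hl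
      exact hl (hall _ (hS₁ i j l hl)))
    have h := congrFun (congrFun hx₁ i) j
    rw [Matrix.map_apply, hz, map_zero, Matrix.smul_apply] at h
    exact (smul_eq_zero.1 h.symm).resolve_left
      ((IsFractionRing.to_map_eq_zero_iff (K := K)).not.2 (mul_ne_zero hd₁ hd₂))
  obtain ⟨c, hcS, hc0, hdvd⟩ := exists_dvd_all S hne
  have hdiv₁ : ∀ i j l, c ∣ coef V l (x₁ i j) := fun i j l => by
    rcases eq_or_ne (coef V l (x₁ i j)) 0 with h | h
    · rw [h]; exact dvd_zero c
    · exact hdvd _ (hS₁ i j l h)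
  have hdiv₂ : ∀ i j l, c ∣ coef V l (x₂ i j) := fun i j l => by
    rcases eq_or_ne (coef V l (x₂ i j)) 0 with h | h
    · rw [h]; exact dvd_zero c
    · exact hdvd _ (hS₂ i j l h)
  choose y₁ hy₁ using fun i j => exists_eq_smul (x₁ i j) (hdiv₁ i j)
  choose y₂ hy₂ using fun i j => exists_eq_smul (x₂ i j) (hdiv₂ i j)
  have hs : ∀ (B : Type u) [CommRing B] [Algebra k B] (r : V) (w : V ⊗[k] B),
      chartMap B ι (r • w) = algebraMap V K r • chartMap B ι w := fun B _ _ r w => by
    rw [Algebra.smul_def, map_mul, Algebra.smul_def]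
    congr 1
  set q : K := (algebraMap V K c)⁻¹ * algebraMap V K d
  have hc : algebraMap V K c ≠ 0 := (IsFractionRing.to_map_eq_zero_iff (K := K)).not.2 hc0
  have hm₁ : (Matrix.of y₁).map (chartMap X.B₁ ι) = q • A₁ := Matrix.ext fun i j => by
    have h := congrFun (congrFun hx₁ i) j
    rw [Matrix.map_apply, hy₁, hs, Matrix.smul_apply] at h
    rw [Matrix.map_apply, Matrix.of_apply, Matrix.smul_apply, mul_smul, ← h,
      inv_smul_smul₀ hc]
  have hm₂ : (Matrix.of y₂).map (chartMap X.B₂ ι) = q • A₂ := Matrix.ext fun i j => by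
    have h := congrFun (congrFun hx₂ i) j
    rw [Matrix.map_apply, hy₂, hs, Matrix.smul_apply] at h
    rw [Matrix.map_apply, Matrix.of_apply, Matrix.smul_apply, mul_smul, ← h,
      inv_smul_smul₀ hc]
  let a' : Hom L L' :=
    { a₁ := Matrix.of y₁
      a₂ := Matrix.of y₂
      left₁ := map_inj_matrix (K := K) ((Matrix.map_mul (f := chartMap X.B₁ ι)).trans
        ((congrArg (L'.e₁.map (chartMap X.B₁ ι) * ·) hm₁).trans
          (((Matrix.mul_smul _ q A₁).trans (congrArg (q • ·) hl₁)).trans hm₁.symm)))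
      right₁ := map_inj_matrix (K := K) ((Matrix.map_mul (f := chartMap X.B₁ ι)).trans
        ((congrArg (· * L.e₁.map (chartMap X.B₁ ι)) hm₁).trans
          (((Matrix.smul_mul q A₁ _).trans (congrArg (q • ·) hr₁)).trans hm₁.symm)))
      left₂ := map_inj_matrix (K := K) ((Matrix.map_mul (f := chartMap X.B₂ ι)).trans
        ((congrArg (L'.e₂.map (chartMap X.B₂ ι) * ·) hm₂).trans
          (((Matrix.mul_smul _ q A₂).trans (congrArg (q • ·) hl₂)).trans hm₂.symm)))
      right₂ := map_inj_matrix (K := K) ((Matrix.map_mul (f := chartMap X.B₂ ι)).trans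
        ((congrArg (· * L.e₂.map (chartMap X.B₂ ι)) hm₂).trans
          (((Matrix.smul_mul q A₂ _).trans (congrArg (q • ·) hr₂)).trans hm₂.symm)))
      compat := by
        refine map_inj_matrix (K := K) ?_
        have e₁ : ((Matrix.of y₁).map (X.res₁ V)).map (chartMap X.B₀ ι) =
            q • A₁.map (X.res₁ K) := by
          rw [show ((Matrix.of y₁).map (X.res₁ V)).map (chartMap X.B₀ ι) =
            ((Matrix.of y₁).map (chartMap X.B₁ ι)).map (X.res₁ K) from
            Matrix.ext fun i j => chartMap_res₁ ι _, hm₁]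
          exact Matrix.ext fun i j => map_smul (X.res₁ K) q _
        have e₂ : ((Matrix.of y₂).map (X.res₂ V)).map (chartMap X.B₀ ι) =
            q • A₂.map (X.res₂ K) := by
          rw [show ((Matrix.of y₂).map (X.res₂ V)).map (chartMap X.B₀ ι) =
            ((Matrix.of y₂).map (chartMap X.B₂ ι)).map (X.res₂ K) from
            Matrix.ext fun i j => chartMap_res₂ ι _, hm₂]
          exact Matrix.ext fun i j => map_smul (X.res₂ K) q _
        refine (Matrix.map_mul (f := chartMap X.B₀ ι)).trans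
          (((congrArg (L'.u.map (chartMap X.B₀ ι) * ·) e₁).trans ?_).trans
            (((congrArg (· * L.u.map (chartMap X.B₀ ι)) e₂).symm).trans
              (Matrix.map_mul (f := chartMap X.B₀ ι)).symm))
        exact (Matrix.mul_smul _ q _).trans
          ((congrArg (q • ·) hco).trans (Matrix.smul_mul q _ _).symm) }
  refine ⟨a', fun F _ _ φ h => ?_⟩
  have h₂ : (a'.map φ).a₂ = 0 := (a'.map φ).a₂_eq_zero h
  -- some coefficient of the new matrices is one
  have hone : ∀ {B : Type u} [CommRing B] [Algebra k B] (x y : V ⊗[k] B) l,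
      x = c • y → coef V l x = c → chartMap B φ y = 0 → False := fun x y l hxy hl hy => by
    rw [hxy, map_smul, smul_eq_mul] at hl
    have h1 : coef V l y = 1 := mul_left_cancel₀ hc0 (hl.trans (mul_one c).symm)
    have := coef_chartMap φ l y
    rw [hy, map_zero, h1, map_one] at this
    exact zero_ne_one this
  rcases Finset.mem_union.1 hcS with hm | hm
  · obtain ⟨⟨i, j⟩, -, hm⟩ := Finset.mem_biUnion.1 hm
    obtain ⟨l, -, hl⟩ := Finset.mem_image.1 hm
    exact hone _ _ l (hy₁ i j) hl (congrFun (congrFun h i) j)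
  · obtain ⟨⟨i, j⟩, -, hm⟩ := Finset.mem_biUnion.1 hm
    obtain ⟨l, -, hl⟩ := Finset.mem_image.1 hm
    exact hone _ _ l (hy₂ i j) hl (congrFun (congrFun h₂ i) j)

/-- Data isomorphic over the fraction field are isomorphic over the valuation ring. -/
theorem Datum.iso_of_iso_fraction {L L' : Datum X V}
    (hdom : ∀ (F : Type u) [Field F] [Algebra k F], IsDomain (X.R₁ F) ∧ IsDomain (X.R₂ F))
    (φ : Iso (L.map (IsScalarTower.toAlgHom k V K)) (L'.map (IsScalarTower.toAlgHom k V K))) :
    Nonempty (Iso L L') := by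
  obtain ⟨h1, -⟩ := hdom K
  have hne : ∀ {M M' : Datum X K} (ψ : Iso M M'), ψ.toHom.a₁ ≠ 0 := fun {M M'} ψ h => by
    have h' : M.e₁ = 0 := by
      have h2 : M.e₁ * M.e₁ = 0 := by
        calc M.e₁ * M.e₁ = ψ.b₁ * (ψ.a₁ * M.e₁) := by rw [← Matrix.mul_assoc, ψ.ba₁]
          _ = 0 := by rw [show ψ.a₁ * M.e₁ = 0 from h, Matrix.mul_zero]
      rwa [M.rank₁.idem] at h2
    have := M.rank₁.trace
    rw [h', Matrix.trace_zero] at this
    exact zero_ne_one this
  obtain ⟨a, ha⟩ := exists_hom_ne_zero φ.toHom (hne φ)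
  obtain ⟨b, hb⟩ := exists_hom_ne_zero φ.symm.toHom (hne φ.symm)
  exact a.iso_of_points b hdom fun F _ _ _ ψ => ⟨ha F ψ, hb F ψ⟩

end FLTAgent.PicScheme
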